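import Mathlib
import Fermat.Prelude.Def_ModularCurve_X0

/-!
# q-expansions of `E₄` and `Δ` as the formal series of the Prelude
-/

set_option autoImplicit false

noncomputable section

open Filter Topology PowerSeries
open scoped PowerSeries.WithPiTopology MatrixGroups ModularForm

namespace Fermat.Agent.ModPoly

/-- Taylor series at `0` of a function `ℂ → ℂ`. -/
def taylorAtZero (g : ℂ → ℂ) : PowerSeries ℂ :=
  .mk fun m => (m.factorial : ℂ)⁻¹ * iteratedDeriv m g 0

lemma coeff_taylorAtZero (g : ℂ → ℂ) (m : ℕ) :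
    (taylorAtZero g).coeff m = (m.factorial : ℂ)⁻¹ * iteratedDeriv m g 0 := by
  simp [taylorAtZero]

lemma taylorAtZero_congr {f g : ℂ → ℂ} (h : f =ᶠ[𝓝 0] g) : taylorAtZero f = taylorAtZero g := by
  ext m
  rw [coeff_taylorAtZero, coeff_taylorAtZero, h.iteratedDeriv_eq]

lemma taylorAtZero_mul {f g : ℂ → ℂ} (hf : AnalyticAt ℂ f 0) (hg : AnalyticAt ℂ g 0) :
    taylorAtZero (f * g) = taylorAtZero f * taylorAtZero g := by
  ext m
  simp only [coeff_taylorAtZero, iteratedDeriv_mul hf.contDiffAt hg.contDiffAt, Finset.mul_sum,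
    PowerSeries.coeff_mul, Finset.Nat.sum_antidiagonal_eq_sum_range_succ_mk, Nat.succ_eq_add_one]
  refine Finset.sum_congr rfl fun i hi ↦ ?_
  rw [Nat.cast_choose _ (by grind)]
  field_simp [Nat.factorial_ne_zero]

lemma taylorAtZero_const (c : ℂ) : taylorAtZero (fun _ => c) = PowerSeries.C c := by
  ext m
  rw [coeff_taylorAtZero]
  rcases m with _ | m
  · simp
  · simp [iteratedDeriv_const]

lemma taylorAtZero_pow {f : ℂ → ℂ} (hf : AnalyticAt ℂ f 0) (n : ℕ) :
    taylorAtZero (f ^ n) = taylorAtZero f ^ n := by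
  induction n with
  | zero =>
    rw [pow_zero, pow_zero, ← map_one (PowerSeries.C (R := ℂ))]
    exact taylorAtZero_const 1
  | succ n ih => rw [pow_succ, pow_succ, taylorAtZero_mul (hf.pow n) hf, ih]

lemma taylorAtZero_polynomial (P : Polynomial ℂ) :
    taylorAtZero (fun q => P.eval q) = (P : PowerSeries ℂ) := by
  ext m
  rw [coeff_taylorAtZero, Polynomial.coeff_coe]
  have h : ∀ (k : ℕ) (Q : Polynomial ℂ),
      iteratedDeriv k (fun q => Q.eval q) = fun q => (Polynomial.derivative^[k] Q).eval q := by
    intro k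
    induction k with
    | zero => intro Q; simp
    | succ k ih =>
      intro Q
      rw [iteratedDeriv_succ', Function.iterate_succ_apply]
      rw [← ih]
      congr 1
      ext q
      simp
  rw [h]
  simp only [← Polynomial.coeff_zero_eq_eval_zero, Polynomial.coeff_iterate_derivative, zero_add,
    Nat.descFactorial_self, nsmul_eq_mul]
  rw [← mul_assoc, inv_mul_cancel₀ (by exact_mod_cast m.factorial_ne_zero), one_mul]

lemma taylorAtZero_id : taylorAtZero (fun q => q) = PowerSeries.X := by
  have := taylorAtZero_polynomial Polynomial.X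
  simpa using this

/-- Locally uniform limits of holomorphic functions: Taylor coefficients converge. -/
lemma tendsto_iteratedDeriv {F : ℕ → ℂ → ℂ} {f : ℂ → ℂ} {U : Set ℂ} (hU : IsOpen U)
    (hf : TendstoLocallyUniformlyOn F f atTop U) (hF : ∀ n, DifferentiableOn ℂ (F n) U) (k : ℕ) :
    TendstoLocallyUniformlyOn (fun n => iteratedDeriv k (F n)) (iteratedDeriv k f) atTop U ∧
      ∀ n, DifferentiableOn ℂ (iteratedDeriv k (F n)) U := by
  induction k with
  | zero => simpa using ⟨hf, hF⟩
  | succ k ih =>
    obtain ⟨h1, h2⟩ := ih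
    refine ⟨?_, fun n => ?_⟩
    · have := h1.deriv (Eventually.of_forall h2) hU
      simpa [iteratedDeriv_succ, Function.comp_def] using this
    · rw [iteratedDeriv_succ]
      exact (h2 n).deriv hU

/-- the partial products of `etaProd` as polynomials. -/
def etaPartial (R : Type*) [CommRing R] (M : ℕ) : Polynomial R :=
  ∏ i ∈ Finset.range M, (1 - Polynomial.X ^ (i + 1))

lemma etaProd_eq_pentagonal : ModularCurve.etaProd = PowerSeries.pentagonalSeries ℤ :=
  PowerSeries.WithPiTopology.tprod_one_sub_X_pow ℤ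

lemma coe_etaPartial (R : Type*) [CommRing R] (M : ℕ) :
    ((etaPartial R M : Polynomial R) : PowerSeries R) =
      ∏ i ∈ Finset.range M, (1 - PowerSeries.X ^ (i + 1)) := by
  have h := map_prod (Polynomial.coeToPowerSeries.ringHom (R := R))
    (fun i => (1 - Polynomial.X ^ (i + 1) : Polynomial R)) (Finset.range M)
  simp only [Polynomial.coeToPowerSeries.ringHom_apply] at h
  rw [etaPartial, h]
  refine Finset.prod_congr rfl fun i _ => ?_
  simp

lemma coeff_etaPartial_eventually (n : ℕ) :
    ∀ᶠ M in atTop, (etaPartial ℤ M).coeff n = (PowerSeries.coeff n) ModularCurve.etaProd := by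
  have h := PowerSeries.coeff_prod_one_sub_X_pow_eventually_eq ℤ n
  rw [← etaProd_eq_pentagonal] at h
  have h2 := Filter.tendsto_finset_range.eventually h
  filter_upwards [h2] with M hM
  rw [← hM, ← Polynomial.coeff_coe, coe_etaPartial]

lemma etaPartial_map {R S : Type*} [CommRing R] [CommRing S] (f : R →+* S) (M : ℕ) :
    (etaPartial R M).map f = etaPartial S M := by
  simp [etaPartial, Polynomial.map_prod]

/-- Taylor expansion of the analytic Euler product is the formal Euler product. -/
lemma taylorAtZero_eulerProd :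
    taylorAtZero (fun q => ∏' n : ℕ, (1 - q ^ (n + 1))) =
      ModularCurve.etaProd.map (Int.castRingHom ℂ) := by
  have hU : IsOpen (Metric.ball (0 : ℂ) 1) := Metric.isOpen_ball
  have hlim : TendstoLocallyUniformlyOn (fun (M : ℕ) (q : ℂ) => (etaPartial ℂ M).eval q)
      (fun q => ∏' n : ℕ, (1 - q ^ (n + 1))) atTop (Metric.ball (0 : ℂ) 1) := by
    have h := ModularForm.multipliableLocallyUniformlyOn_one_sub_pow.hasProdLocallyUniformlyOn
    have h2 := h.tendstoLocallyUniformlyOn_finsetRange
    refine h2.congr ?_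
    intro M q hq
    simp [etaPartial, Polynomial.eval_prod]
  ext k
  obtain ⟨h1, -⟩ := tendsto_iteratedDeriv hU hlim
    (fun M => (Polynomial.differentiable _).differentiableOn) k
  have h3 := (h1.tendsto_at (a := 0) (by simp)).const_mul ((k.factorial : ℂ)⁻¹)
  rw [← coeff_taylorAtZero] at h3
  simp_rw [← coeff_taylorAtZero] at h3
  refine tendsto_nhds_unique h3 ?_
  refine tendsto_const_nhds.congr' ?_
  filter_upwards [coeff_etaPartial_eventually k] with M hM
  rw [taylorAtZero_polynomial, Polynomial.coeff_coe, PowerSeries.coeff_map, ← hM,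
    ← etaPartial_map (Int.castRingHom ℂ), Polynomial.coeff_map]

open UpperHalfPlane in
lemma qExpansion_eq_taylor (f : ℍ → ℂ) :
    qExpansion 1 f = taylorAtZero (cuspFunction 1 f) := by
  ext m
  rw [qExpansion_coeff, coeff_taylorAtZero]

/-- The formal `Δ`-series `q ∏ (1 - q^n)^24` over `ℤ`, as a power series. -/
def deltaPS : PowerSeries ℤ := PowerSeries.X * ModularCurve.dedekindEtaUnit

open UpperHalfPlane in
/-- The `q`-expansion of the discriminant form is the formal product. -/
theorem qExpansion_discriminant :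
    qExpansion 1 ModularForm.discriminant = deltaPS.map (Int.castRingHom ℂ) := by
  rw [qExpansion_eq_taylor]
  have h1 : cuspFunction 1 ModularForm.discriminant =ᶠ[𝓝 0]
      (fun q => q) * (fun q => ∏' n : ℕ, (1 - q ^ (n + 1))) ^ 24 := by
    filter_upwards [Metric.ball_mem_nhds (0 : ℂ) one_pos] with q hq
    rw [ModularForm.discriminant_cuspFunction_eqOn hq]
    simp only [Pi.mul_apply, Pi.pow_apply]
    rw [(ModularForm.multipliable_one_sub_pow (by simpa using hq)).tprod_pow]
  have h2 : AnalyticAt ℂ (fun q : ℂ => ∏' n : ℕ, (1 - q ^ (n + 1))) 0 :=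
    ModularForm.differentiableOn_tprod_one_sub_pow.analyticAt
      (Metric.ball_mem_nhds (0 : ℂ) one_pos)
  have h3 : AnalyticAt ℂ (fun q : ℂ => q) 0 := analyticAt_id
  rw [taylorAtZero_congr h1, taylorAtZero_mul h3 (h2.pow 24), taylorAtZero_id,
    taylorAtZero_pow h2, taylorAtZero_eulerProd, deltaPS, map_mul, PowerSeries.map_X,
    ModularCurve.dedekindEtaUnit, map_pow]

open UpperHalfPlane ModularForm in
/-- The `q`-expansion of `E₄` is the formal `eisenstein4`. -/
theorem qExpansion_E4 :
    qExpansion 1 (E₄ : ModularForm 𝒮ℒ 4) = ModularCurve.eisenstein4.map (Int.castRingHom ℂ) := by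
  ext m
  rw [EisensteinSeries.E_qExpansion_coeff _ ⟨2, rfl⟩, PowerSeries.coeff_map,
    ModularCurve.eisenstein4, PowerSeries.coeff_mk]
  rcases eq_or_ne m 0 with rfl | hm
  · simp
  · rw [if_neg hm, if_neg hm, show bernoulli 4 = -1 / 30 by decide +kernel,
      ArithmeticFunction.sigma_apply]
    push_cast
    norm_num

end Fermat.Agent.ModPoly
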