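import Mathlib
import Fermat.Prelude.Def_ModularCurve_X0ModL
import Fermat.Prelude.Def_ModularForm_HeckeOperatorForms
import Fermat.Prelude.Thm_ModularFormClass_qCoeff_heckeT
import Fermat.Agent.ModPoly.DeltaExp

/-!
# Level-one forms of weight `12 n` and their Hecke traces, formally
-/

set_option autoImplicit false

noncomputable section

open Filter Topology PowerSeries UpperHalfPlane
open scoped MatrixGroups ModularForm

namespace Fermat.Agent.ModPoly

/-- `P` is the `q`-expansion of a level one form of weight `k`. -/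
def IsLevelOne (k : ℤ) (P : PowerSeries ℂ) : Prop :=
  ∃ f : ModularForm 𝒮ℒ k, qExpansion 1 f = P

lemma IsLevelOne.mul {a b : ℤ} {P Q : PowerSeries ℂ} (hP : IsLevelOne a P) (hQ : IsLevelOne b Q) :
    IsLevelOne (a + b) (P * Q) := by
  obtain ⟨f, rfl⟩ := hP
  obtain ⟨g, rfl⟩ := hQ
  exact ⟨f.mul g, ModularForm.qExpansion_mul one_pos one_mem_strictPeriods_SL f g⟩

lemma IsLevelOne.cast {a b : ℤ} {P : PowerSeries ℂ} (hP : IsLevelOne a P) (h : a = b) :
    IsLevelOne b P := h ▸ hP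

lemma IsLevelOne.pow {a : ℤ} {P : PowerSeries ℂ} (hP : IsLevelOne a P) (n : ℕ) :
    IsLevelOne (n * a) (P ^ n) := by
  obtain ⟨f, rfl⟩ := hP
  exact ⟨f.pow n, ModularForm.qExpansion_pow one_pos one_mem_strictPeriods_SL f n⟩

lemma IsLevelOne.sub {a : ℤ} {P Q : PowerSeries ℂ} (hP : IsLevelOne a P) (hQ : IsLevelOne a Q) :
    IsLevelOne a (P - Q) := by
  obtain ⟨f, rfl⟩ := hP
  obtain ⟨g, rfl⟩ := hQ
  exact ⟨f - g, ModularForm.qExpansion_sub one_pos one_mem_strictPeriods_SL f g⟩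

lemma IsLevelOne.smul {a : ℤ} {P : PowerSeries ℂ} (c : ℂ) (hP : IsLevelOne a P) :
    IsLevelOne a (c • P) := by
  obtain ⟨f, rfl⟩ := hP
  exact ⟨c • f, ModularForm.qExpansion_smul one_pos one_mem_strictPeriods_SL c f⟩

lemma isLevelOne_E4 : IsLevelOne 4 (ModularCurve.eisenstein4.map (Int.castRingHom ℂ)) :=
  ⟨_, qExpansion_E4⟩

lemma isLevelOne_delta : IsLevelOne 12 (deltaPS.map (Int.castRingHom ℂ)) :=
  ⟨CuspForm.discriminant, qExpansion_discriminant⟩

lemma isLevelOne_zero_weight {P : PowerSeries ℂ} (h : IsLevelOne 0 P) :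
    ∃ c : ℂ, P = PowerSeries.C c := by
  obtain ⟨f, rfl⟩ := h
  obtain ⟨c, hc⟩ := ModularFormClass.levelOne_weight_zero_const f
  refine ⟨c, ?_⟩
  have h1 : (⇑f : ℍ → ℂ) = c • (1 : ℍ → ℂ) := by
    rw [hc]; ext z; simp
  rw [h1, UpperHalfPlane.qExpansion_smul, UpperHalfPlane.qExpansion_one, PowerSeries.smul_eq_C_mul,
    mul_one]
  have h2 := ModularFormClass.analyticAt_cuspFunction_zero (1 : ModularForm 𝒮ℒ 0) one_pos
    one_mem_strictPeriods_SL
  simpa using h2

/-- Division by `Δ`. -/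
lemma IsLevelOne.exists_eq_delta_mul {k : ℤ} {P : PowerSeries ℂ} (h : IsLevelOne k P)
    (h0 : P.coeff 0 = 0) :
    ∃ Q, IsLevelOne (k - 12) Q ∧ P = deltaPS.map (Int.castRingHom ℂ) * Q := by
  obtain ⟨f, rfl⟩ := h
  refine ⟨_, ⟨CuspForm.discriminantEquiv (ModularForm.toCuspForm f h0), rfl⟩, ?_⟩
  rw [← qExpansion_discriminant]
  exact ModularForm.qExpansion_eq_qExpansion_discriminant_mul f h0

/-- `E₄³` as a power series over `ℤ`. -/
def e4cube : PowerSeries ℤ := ModularCurve.eisenstein4 ^ 3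

lemma isLevelOne_e4cube : IsLevelOne 12 (e4cube.map (Int.castRingHom ℂ)) := by
  have h := isLevelOne_E4.pow 3
  rw [← map_pow] at h
  exact h.cast (by norm_num)

/-- The formal Hecke operator on power series. -/
def heckePS (k p : ℕ) (P : PowerSeries ℂ) : PowerSeries ℂ :=
  .mk fun n => P.coeff (n * p) + if p ∣ n then (p : ℂ) ^ ((k : ℤ) - 1) * P.coeff (n / p) else 0

lemma gamma0_one_map : (Subgroup.map (Matrix.SpecialLinearGroup.mapGL ℝ)
    (CongruenceSubgroup.Gamma0 1)) = 𝒮ℒ := by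
  have : CongruenceSubgroup.Gamma0 1 = ⊤ := by
    ext γ
    simp [CongruenceSubgroup.Gamma0_mem, Subsingleton.elim _ (0 : ZMod 1)]
  rw [this, ← MonoidHom.range_eq_map]

lemma IsLevelOne.heckePS {k p : ℕ} (hp : p.Prime) {P : PowerSeries ℂ} (h : IsLevelOne k P) :
    IsLevelOne k (heckePS k p P) := by
  obtain ⟨f, rfl⟩ := h
  let f' : ModularForm (CongruenceSubgroup.Gamma0 1) k :=
    ModularForm.mcast rfl f gamma0_one_map
  let g' := ModularForm.heckeTLin (k : ℤ) hp (N := 1) (by simpa using hp.one_lt.ne') f'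
  refine ⟨ModularForm.mcast rfl g' gamma0_one_map.symm, ?_⟩
  ext n
  have h1 := ModularFormClass.qCoeff_heckeT f one_mem_strictPeriods_SL hp.ne_zero n
  exact h1.trans (by simp [ModularForm.coeffHeckeT, ModularFormClass.qCoeff, Fermat.Agent.ModPoly.heckePS])

end Fermat.Agent.ModPoly
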