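import Mathlib
import Fermat.Prelude.Def_ModularCurve_X0ModL

/-!
# Twists `q ↦ u q` of Laurent series
-/

set_option autoImplicit false

noncomputable section

open HahnSeries ModularCurve

namespace Fermat.Agent.ModPoly

variable {R S : Type*} [CommRing R] [CommRing S]

/-- The underlying function of the twist `q ↦ u q`. -/
def twistFun (u : Rˣ) (F : LaurentSeries R) : LaurentSeries R where
  coeff n := ((u ^ n : Rˣ) : R) * F.coeff n
  isPWO_support' := F.isPWO_support.mono (by
    intro n hn
    simp only [Function.mem_support, HahnSeries.mem_support] at hn ⊢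
    exact fun h => hn (by rw [h, mul_zero]))

theorem twistFun_coeff (u : Rˣ) (F : LaurentSeries R) (n : ℤ) :
    (twistFun u F).coeff n = ((u ^ n : Rˣ) : R) * F.coeff n := rfl

theorem support_twistFun (u : Rˣ) (F : LaurentSeries R) : (twistFun u F).support = F.support := by
  ext n
  simp only [HahnSeries.mem_support, twistFun_coeff, ne_eq, Units.mul_right_eq_zero]

/-- The ring endomorphism `q ↦ u q` of `R((q))`. -/
def twist (u : Rˣ) : LaurentSeries R →+* LaurentSeries R where
  toFun := twistFun u
  map_zero' := by ext n; simp [twistFun_coeff]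
  map_one' := by
    ext n
    rw [twistFun_coeff, HahnSeries.coeff_one]
    split_ifs with h <;> simp [h]
  map_add' F G := by ext n; simp [twistFun_coeff, mul_add]
  map_mul' F G := by
    ext n
    rw [twistFun_coeff, HahnSeries.coeff_mul,
      HahnSeries.coeff_mul_left' F.isPWO_support (support_twistFun u F).le,
      Finset.mul_sum]
    have hG : (Finset.antidiagonal F.isPWO_support (twistFun u G).isPWO_support n) =
        Finset.antidiagonal F.isPWO_support G.isPWO_support n := by
      ext ij
      simp [Finset.mem_antidiagonal, support_twistFun]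
    rw [hG]
    refine Finset.sum_congr rfl fun ij hij => ?_
    have h : ij.1 + ij.2 = n := by
      simpa using (Finset.mem_antidiagonal.mp hij).2.2
    rw [twistFun_coeff, twistFun_coeff, ← h, zpow_add]
    push_cast
    ring

@[simp]
theorem twist_coeff (u : Rˣ) (F : LaurentSeries R) (n : ℤ) :
    (twist u F).coeff n = ((u ^ n : Rˣ) : R) * F.coeff n := rfl

theorem twist_single (u : Rˣ) (n : ℤ) (r : R) :
    twist u (HahnSeries.single n r) = HahnSeries.single n (((u ^ n : Rˣ) : R) * r) := by
  ext m
  rw [twist_coeff]
  rcases eq_or_ne m n with rfl | hm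
  · simp
  · rw [HahnSeries.coeff_single_of_ne hm, HahnSeries.coeff_single_of_ne hm, mul_zero]

theorem twist_one (F : LaurentSeries R) : twist (1 : Rˣ) F = F := by
  ext n; simp

theorem twist_twist (u v : Rˣ) (F : LaurentSeries R) : twist u (twist v F) = twist (u * v) F := by
  ext n
  rw [twist_coeff, twist_coeff, twist_coeff, mul_zpow]
  push_cast
  ring

theorem twist_injective (u : Rˣ) : Function.Injective (twist u) := by
  intro F G h
  have := congrArg (twist u⁻¹) h
  simpa [twist_twist, twist_one] using this

theorem coeffMap_twist (f : R →+* S) (u : Rˣ) (F : LaurentSeries R) :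
    coeffMap f (twist u F) = twist (Units.map f u) (coeffMap f F) := by
  ext n
  rw [coeffMap_coeff, twist_coeff, twist_coeff, coeffMap_coeff, map_mul, ← map_zpow]
  rfl

/-- `q ↦ u q` after `q ↦ q^N` is `q ↦ q^N` after `q ↦ u^N q`. -/
theorem twist_qExpand (u : Rˣ) (N : ℕ) [NeZero N] (F : LaurentSeries R) :
    twist u (qExpand R N F) = qExpand R N (twist (u ^ N) F) := by
  ext n
  rw [twist_coeff]
  by_cases hn : (N : ℤ) ∣ n
  · obtain ⟨m, rfl⟩ := hn
    rw [qExpand_coeff_mul, qExpand_coeff_mul, twist_coeff, zpow_mul, zpow_natCast]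
  · rw [qExpand_coeff_of_not_dvd N _ hn, qExpand_coeff_of_not_dvd N _ hn, mul_zero]

theorem twist_qExpand_of_pow_eq_one (u : Rˣ) (N : ℕ) [NeZero N] (hu : u ^ N = 1)
    (F : LaurentSeries R) : twist u (qExpand R N F) = qExpand R N F := by
  rw [twist_qExpand, hu, twist_one]

theorem algebraMap_eq_single (c : R) :
    algebraMap R (LaurentSeries R) c = HahnSeries.single 0 c := by
  have h1 : algebraMap R (PowerSeries R) c = PowerSeries.C c := by
    simp
  rw [HahnSeries.algebraMap_apply', h1, HahnSeries.ofPowerSeries_C]
  rfl

theorem twist_algebraMap (u : Rˣ) (c : R) :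
    twist u (algebraMap R (LaurentSeries R) c) = algebraMap R (LaurentSeries R) c := by
  rw [algebraMap_eq_single, twist_single]
  simp

theorem coeffMap_injective {f : R →+* S} (hf : Function.Injective f) :
    Function.Injective (coeffMap f) := by
  intro F G h
  ext n
  have := congrArg (fun x => x.coeff n) h
  simp only [coeffMap_coeff] at this
  exact hf this

end Fermat.Agent.ModPoly
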