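import Mathlib
import Fermat.Prelude.Def_ModularCurve_X0ModL
import Fermat.Agent.ModPoly.LevelOne
import Fermat.Agent.ModPoly.Twist

/-!
# Formal Laurent series `Δ`, `E₄³`, `j` over any ring; weight `12 n` structure theorem;
trace formula for the Hecke operator.
-/

set_option autoImplicit false

noncomputable section

open HahnSeries ModularCurve

namespace Fermat.Agent.ModPoly

section Defs

variable (R : Type*) [CommRing R]

/-- `Δ` as a Laurent series over `R`. -/
def dL : LaurentSeries R := HahnSeries.ofPowerSeries ℤ R (deltaPS.map (Int.castRingHom R))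

/-- `E₄³` as a Laurent series over `R`. -/
def eL : LaurentSeries R := HahnSeries.ofPowerSeries ℤ R (e4cube.map (Int.castRingHom R))

/-- `Δ⁻¹` as a Laurent series over `R`. -/
def dInv : LaurentSeries R :=
  HahnSeries.single (-1 : ℤ) 1 *
    HahnSeries.ofPowerSeries ℤ R (dedekindEtaUnitInv.map (Int.castRingHom R))

theorem dL_eq : dL R = HahnSeries.single (1 : ℤ) 1 *
    HahnSeries.ofPowerSeries ℤ R (dedekindEtaUnit.map (Int.castRingHom R)) := by
  rw [dL, deltaPS, map_mul, map_mul, PowerSeries.map_X, HahnSeries.ofPowerSeries_X]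

theorem dL_mul_dInv : dL R * dInv R = 1 := by
  rw [dL_eq, dInv]
  have h1 : (HahnSeries.ofPowerSeries ℤ R (dedekindEtaUnit.map (Int.castRingHom R))) *
      (HahnSeries.ofPowerSeries ℤ R (dedekindEtaUnitInv.map (Int.castRingHom R))) = 1 := by
    rw [← map_mul, ← map_mul, dedekindEtaUnit_mul_inv, map_one, map_one]
  have h2 : (HahnSeries.single (1 : ℤ) (1 : R)) * (HahnSeries.single (-1 : ℤ) (1 : R)) = 1 := by
    rw [HahnSeries.single_mul_single]; simp
  linear_combination
    ((HahnSeries.single (1 : ℤ) (1 : R)) * (HahnSeries.single (-1 : ℤ) (1 : R))) * h1 + h2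

theorem jqModC_eq : jqModC R = eL R * dInv R := by
  rw [jqModC, eL, dInv, jNum, e4cube, map_mul, map_mul]
  ring

theorem eL_eq : eL R = jqModC R * dL R := by
  rw [jqModC_eq, mul_assoc, mul_comm (dInv R), dL_mul_dInv, mul_one]

variable {R}
variable {S : Type*} [CommRing S]

theorem coeffMap_ofPowerSeries_int (f : R →+* S) (P : PowerSeries ℤ) :
    coeffMap f (HahnSeries.ofPowerSeries ℤ R (P.map (Int.castRingHom R))) =
      HahnSeries.ofPowerSeries ℤ S (P.map (Int.castRingHom S)) := by
  rw [coeffMap_ofPowerSeries,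
    ← RingHom.comp_apply (PowerSeries.map f) (PowerSeries.map (Int.castRingHom R)),
    ← PowerSeries.map_comp,
    RingHom.ext_int (f.comp (Int.castRingHom R)) (Int.castRingHom S)]

@[simp]
theorem coeffMap_dL (f : R →+* S) : coeffMap f (dL R) = dL S := coeffMap_ofPowerSeries_int f _

@[simp]
theorem coeffMap_eL (f : R →+* S) : coeffMap f (eL R) = eL S := coeffMap_ofPowerSeries_int f _

@[simp]
theorem coeffMap_dInv (f : R →+* S) : coeffMap f (dInv R) = dInv S := by
  rw [dInv, map_mul, coeffMap_single, map_one, coeffMap_ofPowerSeries_int, dInv]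

end Defs

/-- Structure of level one forms of weight `12 n`. -/
theorem IsLevelOne.exists_polynomial (n : ℕ) : ∀ {P : PowerSeries ℂ}, IsLevelOne (12 * n) P →
    ∃ G : Polynomial ℂ, HahnSeries.ofPowerSeries ℤ ℂ P =
      dL ℂ ^ n * Polynomial.aeval (jqModC ℂ) G := by
  induction n with
  | zero =>
    intro P h
    obtain ⟨c, rfl⟩ := isLevelOne_zero_weight (h.cast (by simp))
    refine ⟨Polynomial.C c, ?_⟩
    rw [pow_zero, one_mul, Polynomial.aeval_C, algebraMap_eq_single, HahnSeries.ofPowerSeries_C]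
    rfl
  | succ n ih =>
    intro P h
    have h1 := (isLevelOne_e4cube.pow (n + 1)).smul (PowerSeries.coeff 0 P)
    have h2 := h.sub (h1.cast (by push_cast; ring))
    obtain ⟨Q, hQ, hPQ⟩ := h2.exists_eq_delta_mul (by
      simp only [map_sub, PowerSeries.coeff_smul, smul_eq_mul]
      have : (PowerSeries.coeff 0) ((e4cube.map (Int.castRingHom ℂ)) ^ (n + 1)) = 1 := by
        rw [PowerSeries.coeff_zero_eq_constantCoeff, map_pow,
          ← PowerSeries.coeff_zero_eq_constantCoeff, PowerSeries.coeff_map,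
          PowerSeries.coeff_zero_eq_constantCoeff, e4cube, map_pow,
          constantCoeff_eisenstein4]
        simp
      rw [this, mul_one, sub_self])
    obtain ⟨G, hG⟩ := ih (hQ.cast (by push_cast; ring))
    refine ⟨Polynomial.C (PowerSeries.coeff 0 P) * Polynomial.X ^ (n + 1) + G, ?_⟩
    have h3 : P = deltaPS.map (Int.castRingHom ℂ) * Q +
        PowerSeries.C (PowerSeries.coeff 0 P) * (e4cube.map (Int.castRingHom ℂ)) ^ (n + 1) := by
      rw [← hPQ, PowerSeries.smul_eq_C_mul]; ring
    rw [h3, map_add, map_mul, map_mul, map_pow, hG]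
    change dL ℂ * _ + HahnSeries.ofPowerSeries ℤ ℂ (PowerSeries.C _) * eL ℂ ^ (n + 1) = _
    rw [eL_eq, map_add, map_mul, Polynomial.aeval_C, map_pow, Polynomial.aeval_X,
      algebraMap_eq_single, HahnSeries.ofPowerSeries_C]
    simp only [← h3]
    change _ + HahnSeries.single 0 _ * _ = _
    ring

/-- Geometric sums of powers of a primitive root of unity. -/
theorem sum_zpow_primitiveRoot {K : Type*} [Field K] {p : ℕ} {u : Kˣ}
    (hu : IsPrimitiveRoot u p) (n : ℤ) :
    ∑ b : Fin p, (((u ^ (b : ℕ)) ^ n : Kˣ) : K) = if (p : ℤ) ∣ n then (p : K) else 0 := by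
  have h1 : ∀ b : Fin p, (((u ^ (b : ℕ)) ^ n : Kˣ) : K) = (((u ^ n : Kˣ)) : K) ^ (b : ℕ) := by
    intro b
    rw [← Units.val_pow_eq_pow_val, ← zpow_natCast, ← zpow_natCast, ← zpow_mul, ← zpow_mul,
      mul_comm]
  rw [Finset.sum_congr rfl fun b _ => h1 b]
  split_ifs with h
  · have : u ^ n = 1 := (hu.zpow_eq_one_iff_dvd n).mpr h
    simp [this]
  · have h2 : ((u ^ n : Kˣ) : K) ≠ 1 := by
      intro h3
      exact h ((hu.zpow_eq_one_iff_dvd n).mp (Units.val_eq_one.mp h3))
    have h3 : ((u ^ n : Kˣ) : K) ^ p = 1 := by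
      rw [← Units.val_pow_eq_pow_val, ← zpow_natCast, ← zpow_mul, mul_comm, zpow_mul,
        zpow_natCast, hu.pow_eq_one, one_zpow, Units.val_one]
    rw [Fin.sum_univ_eq_sum_range (fun b => ((u ^ n : Kˣ) : K) ^ b) p]
    have h4 := geom_sum_mul ((u ^ n : Kˣ) : K) p
    rw [h3, sub_self] at h4
    exact (mul_eq_zero.mp h4).resolve_right (sub_ne_zero.mpr h2)

section Tuple

variable {R : Type*} [CommRing R] (p : ℕ) [NeZero p] (u : Rˣ)

/-- The `p + 1` conjugates `F(q^p)`, `F(u^b q^{1/p})` written in the variable `t = q^{1/p}`. -/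
def conjL : Option (Fin p) → LaurentSeries R →+* LaurentSeries R
  | none => (qExpand R p).comp (qExpand R p)
  | some b => twist (u ^ (b : ℕ))

/-- weights `p^k` at infinity. -/
def wtL (k : ℕ) : Option (Fin p) → LaurentSeries R
  | none => ((p : LaurentSeries R)) ^ k
  | some _ => 1

end Tuple

theorem trace_formula (p : ℕ) [hp : Fact p.Prime] {u : ℂˣ} (hu : IsPrimitiveRoot u p)
    (k : ℕ) (P : PowerSeries ℂ) :
    ∑ i, wtL p k i * conjL p u i (HahnSeries.ofPowerSeries ℤ ℂ P) =
      (p : LaurentSeries ℂ) *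
        qExpand ℂ p (HahnSeries.ofPowerSeries ℤ ℂ (heckePS k p P)) := by
  have hp0 : (p : ℂ) ≠ 0 := by exact_mod_cast hp.out.ne_zero
  rw [Fintype.sum_option]
  simp only [wtL, conjL, one_mul, RingHom.comp_apply]
  have hcast : ∀ m : ℕ, (m : LaurentSeries ℂ) = HahnSeries.single 0 (m : ℂ) := by
    intro m
    rw [← algebraMap_eq_single, map_natCast]
  ext n
  rw [← Nat.cast_pow, hcast, hcast, HahnSeries.coeff_add, HahnSeries.coeff_single_zero_mul,
    HahnSeries.coeff_single_zero_mul, HahnSeries.coeff_sum]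
  simp only [twist_coeff]
  rw [← Finset.sum_mul, sum_zpow_primitiveRoot hu]
  split_ifs with h
  · obtain ⟨m, rfl⟩ := h
    rw [qExpand_coeff_mul, qExpand_coeff_mul]
    rcases lt_or_ge m 0 with hm | hm
    · rw [ofPowerSeries_coeff_of_neg _ hm,
        ofPowerSeries_coeff_of_neg _ (show (p : ℤ) * m < 0 from
          mul_neg_of_pos_of_neg (by exact_mod_cast hp.out.pos) hm)]
      have : (qExpand ℂ p (HahnSeries.ofPowerSeries ℤ ℂ P)).coeff m = 0 := by
        by_cases hd : (p : ℤ) ∣ m
        · obtain ⟨l, rfl⟩ := hd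
          rw [qExpand_coeff_mul]
          refine ofPowerSeries_coeff_of_neg _ ?_
          by_contra hl
          exact absurd hm (not_lt.mpr (mul_nonneg (by positivity) (not_lt.mp hl)))
        · exact qExpand_coeff_of_not_dvd _ _ hd
      rw [this]; ring
    · lift m to ℕ using hm
      rw [HahnSeries.ofPowerSeries_apply_coeff, heckePS, PowerSeries.coeff_mk,
        show (p : ℤ) * (m : ℤ) = ((m * p : ℕ) : ℤ) by push_cast; ring,
        HahnSeries.ofPowerSeries_apply_coeff]
      by_cases hd : p ∣ m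
      · obtain ⟨l, rfl⟩ := hd
        rw [if_pos (dvd_mul_right p l), Nat.mul_div_cancel_left _ hp.out.pos]
        rw [show ((p * l : ℕ) : ℤ) = (p : ℤ) * (l : ℤ) by push_cast; ring, qExpand_coeff_mul,
          HahnSeries.ofPowerSeries_apply_coeff, zpow_sub_one₀ hp0]
        push_cast
        rw [zpow_natCast]
        field_simp
        ring
      · rw [if_neg hd, qExpand_coeff_of_not_dvd _ _ (by exact_mod_cast hd)]
        ring
  · have h2 : ¬ (p : ℤ) ∣ n := h
    rw [qExpand_coeff_of_not_dvd _ _ h2, qExpand_coeff_of_not_dvd _ _ h2]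
    ring

end Fermat.Agent.ModPoly
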