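import Mathlib

/-!
# Newton identities: power sums in a `ℚ`-subalgebra imply elementary symmetric functions there
-/

set_option autoImplicit false

noncomputable section

open Polynomial

namespace Fermat.Agent.ModPoly

variable {A ι : Type*} [CommRing A] [Algebra ℚ A] [Fintype ι]

theorem esymm_mem_of_psum_mem (S : Subalgebra ℚ A) (x : ι → A)
    (h : ∀ k : ℕ, ∑ i, x i ^ k ∈ S) (k : ℕ) :
    MvPolynomial.aeval x (MvPolynomial.esymm ι ℚ k) ∈ S := by
  classical
  induction k using Nat.strong_induction_on with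
  | _ k ih =>
    rcases Nat.eq_zero_or_pos k with rfl | hk
    · simp
    · have h1 := congrArg (MvPolynomial.aeval x) (MvPolynomial.mul_esymm_eq_sum ι ℚ k)
      simp only [map_mul, map_natCast, map_sum, map_pow, map_neg, map_one] at h1
      have h2 : (k : A) * MvPolynomial.aeval x (MvPolynomial.esymm ι ℚ k) ∈ S := by
        rw [h1]
        refine S.mul_mem (S.pow_mem (S.neg_mem S.one_mem) _) (S.sum_mem fun a ha => ?_)
        have ha' : a.1 < k := (Finset.mem_filter.mp ha).2
        refine S.mul_mem (S.mul_mem (S.pow_mem (S.neg_mem S.one_mem) _) (ih _ ha')) ?_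
        have : MvPolynomial.aeval x (MvPolynomial.psum ι ℚ a.2) = ∑ i, x i ^ a.2 := by
          simp [MvPolynomial.psum]
        rw [this]
        exact h _
      have h3 : MvPolynomial.aeval x (MvPolynomial.esymm ι ℚ k) =
          ((k : ℚ)⁻¹) • ((k : A) * MvPolynomial.aeval x (MvPolynomial.esymm ι ℚ k)) := by
        have hk0 : (k : ℚ) ≠ 0 := by exact_mod_cast hk.ne'
        rw [Algebra.smul_def, ← mul_assoc, ← map_natCast (algebraMap ℚ A) k, ← map_mul,
          inv_mul_cancel₀ hk0, map_one, one_mul]
      rw [h3]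
      exact S.smul_mem h2 _

theorem exists_polynomial_of_psum_mem (S : Subalgebra ℚ A) (x : ι → A)
    (h : ∀ k : ℕ, ∑ i, x i ^ k ∈ S) :
    ∃ P : Polynomial S, P.map (algebraMap S A) = ∏ i, (X - C (x i)) := by
  classical
  have he : ∀ k, (Finset.univ.val.map x).esymm k ∈ S := by
    intro k
    rw [← MvPolynomial.aeval_esymm_eq_multiset_esymm ι ℚ k x]
    exact esymm_mem_of_psum_mem S x h k
  refine ⟨∑ j ∈ Finset.range (Multiset.card (Finset.univ.val.map x) + 1),
    (-1) ^ j * (C (⟨_, he j⟩ : S) * X ^ (Multiset.card (Finset.univ.val.map x) - j)), ?_⟩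
  have h1 := Multiset.prod_X_sub_X_eq_sum_esymm (Finset.univ.val.map x)
  rw [Multiset.map_map] at h1
  change _ = (Finset.univ.val.map (fun i => X - C (x i))).prod
  rw [show (fun i => X - C (x i)) = (fun t => X - C t) ∘ x from rfl, h1]
  simp [Polynomial.map_sum]

end Fermat.Agent.ModPoly
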