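import Mathlib
import Fermat.Prelude.Def_ModularCurve_X0ModL
import Fermat.Agent.ModPoly.Formal

/-!
# Orders, descent of coefficients
-/

set_option autoImplicit false

noncomputable section

open HahnSeries ModularCurve

namespace Fermat.Agent.ModPoly

section Descent

variable {A : Type*} [CommRing A]

theorem laurent_smul_coeff (c : A) (F : LaurentSeries A) (n : ℤ) :
    (@HSMul.hSMul A (LaurentSeries A) (LaurentSeries A)
      (@instHSMul A (LaurentSeries A) (Algebra.toSMul)) c F).coeff n = c * F.coeff n := by
  rw [Algebra.smul_def, algebraMap_eq_single, HahnSeries.coeff_single_zero_mul]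

theorem coeff_aeval_jq (G : Polynomial A) (n : ℤ) :
    (Polynomial.aeval (jqModC A) G).coeff n =
      ∑ k ∈ Finset.range (G.natDegree + 1), G.coeff k * (jqModC A ^ k).coeff n := by
  rw [Polynomial.aeval_eq_sum_range, HahnSeries.coeff_sum]
  refine Finset.sum_congr rfl fun k _ => ?_
  rw [laurent_smul_coeff]

theorem coeff_aeval_jq_neg_natDegree (G : Polynomial A) :
    (Polynomial.aeval (jqModC A) G).coeff (-(G.natDegree : ℤ)) = G.leadingCoeff := by
  rw [coeff_aeval_jq, Finset.sum_eq_single G.natDegree]
  · rw [coeff_jqModC_pow_self, mul_one]; rfl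
  · intro k hk hk2
    have : k < G.natDegree := lt_of_le_of_ne (Nat.lt_succ_iff.mp (Finset.mem_range.mp hk)) hk2
    rw [coeff_jqModC_pow_of_lt A (by omega), mul_zero]
  · intro h
    exact absurd (Finset.mem_range.mpr (Nat.lt_succ_self _)) h

theorem coeff_aeval_jq_of_lt (G : Polynomial A) {n : ℤ} (hn : n < -(G.natDegree : ℤ)) :
    (Polynomial.aeval (jqModC A) G).coeff n = 0 := by
  rw [coeff_aeval_jq]
  refine Finset.sum_eq_zero fun k hk => ?_
  have : k ≤ G.natDegree := Nat.lt_succ_iff.mp (Finset.mem_range.mp hk)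
  rw [coeff_jqModC_pow_of_lt A (by omega), mul_zero]

theorem coeff_jq_pow_mem (S : Subring A) (k : ℕ) (n : ℤ) : (jqModC A ^ k).coeff n ∈ S := by
  have h : jqModC A ^ k = coeffMap (Int.castRingHom A) (jqModC ℤ ^ k) := by
    rw [map_pow, coeffMap_jqModC]
  rw [h, coeffMap_coeff]
  exact intCast_mem S _

/-- Descent of coefficients along a subring. -/
theorem coeff_mem_of_aeval_jq_mem (S : Subring A) :
    ∀ (d : ℕ) (G : Polynomial A), G.natDegree ≤ d →
      (∀ n, (Polynomial.aeval (jqModC A) G).coeff n ∈ S) → ∀ k, G.coeff k ∈ S := by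
  intro d
  induction d with
  | zero =>
    intro G hG h k
    rcases Nat.eq_zero_or_pos k with rfl | hk
    · have h1 := h (-(G.natDegree : ℤ))
      rw [coeff_aeval_jq_neg_natDegree] at h1
      have h2 : G.natDegree = 0 := Nat.le_zero.mp hG
      rwa [Polynomial.leadingCoeff, h2] at h1
    · rw [Polynomial.coeff_eq_zero_of_natDegree_lt (by omega)]
      exact S.zero_mem
  | succ d ih =>
    intro G hG h k
    have h1 := h (-(G.natDegree : ℤ))
    rw [coeff_aeval_jq_neg_natDegree] at h1
    rcases Nat.lt_or_ge G.natDegree (d + 1) with hlt | hge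
    · exact ih G (by omega) h k
    · have h3 : ∀ n, (Polynomial.aeval (jqModC A) G.eraseLead).coeff n ∈ S := by
        intro n
        have h4 := congrArg (Polynomial.aeval (jqModC A)) (Polynomial.eraseLead_add_C_mul_X_pow G)
        rw [map_add, map_mul, Polynomial.aeval_C, map_pow, Polynomial.aeval_X,
          ← Algebra.smul_def] at h4
        have h5 : (Polynomial.aeval (jqModC A) G.eraseLead).coeff n =
            (Polynomial.aeval (jqModC A) G).coeff n -
              G.leadingCoeff * (jqModC A ^ G.natDegree).coeff n := by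
          rw [← h4, HahnSeries.coeff_add, laurent_smul_coeff]
          ring
        rw [h5]
        exact S.sub_mem (h n) (S.mul_mem h1 (coeff_jq_pow_mem S _ _))
      have h6 := ih G.eraseLead (by
        have := Polynomial.eraseLead_natDegree_le G
        omega) h3 k
      rw [Polynomial.eraseLead_coeff] at h6
      split_ifs at h6 with hk
      · rw [hk]; exact h1
      · exact h6

end Descent

/-- evaluation of integer polynomials at `j(q)` -/
def evJ (R : Type*) [CommRing R] : Polynomial ℤ →+* LaurentSeries R :=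
  Polynomial.eval₂RingHom (Int.castRingHom _) (jqModC R)

/-- evaluation of integer polynomials at `j(t^p)` -/
def evV (R : Type*) [CommRing R] (p : ℕ) [NeZero p] : Polynomial ℤ →+* LaurentSeries R :=
  (qExpand R p).comp (evJ R)

theorem evJ_apply (R : Type*) [CommRing R] (H : Polynomial ℤ) :
    evJ R H = Polynomial.aeval (jqModC R) H := by
  rw [evJ, Polynomial.coe_eval₂RingHom, Polynomial.aeval_def,
    RingHom.ext_int (algebraMap ℤ (LaurentSeries R)) (Int.castRingHom _)]

theorem evJ_eq_aeval_map (R : Type*) [CommRing R] (H : Polynomial ℤ) :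
    evJ R H = Polynomial.aeval (jqModC R) (H.map (Int.castRingHom R)) := by
  rw [evJ, Polynomial.coe_eval₂RingHom, Polynomial.aeval_def, Polynomial.eval₂_map,
    RingHom.ext_int ((algebraMap R (LaurentSeries R)).comp (Int.castRingHom R))
      (Int.castRingHom _)]

theorem coeffMap_evJ {R S : Type*} [CommRing R] [CommRing S] (f : R →+* S) (H : Polynomial ℤ) :
    coeffMap f (evJ R H) = evJ S H := by
  rw [evJ, evJ, Polynomial.coe_eval₂RingHom, Polynomial.coe_eval₂RingHom, Polynomial.hom_eval₂,
    coeffMap_jqModC, RingHom.ext_int ((coeffMap f).comp (Int.castRingHom _)) (Int.castRingHom _)]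

theorem coeffMap_evV {R S : Type*} [CommRing R] [CommRing S] (f : R →+* S) (p : ℕ) [NeZero p]
    (H : Polynomial ℤ) : coeffMap f (evV R p H) = evV S p H := by
  rw [evV, evV, RingHom.comp_apply, RingHom.comp_apply, coeffMap_qExpand, coeffMap_evJ]

/-- A polynomial in `j` with integer `q`-expansion has integer coefficients. -/
theorem exists_int_polynomial (G : Polynomial ℂ)
    (h : ∀ n, ∃ m : ℤ, (Polynomial.aeval (jqModC ℂ) G).coeff n = m) :
    ∃ H : Polynomial ℤ, Polynomial.aeval (jqModC ℂ) G = evJ ℂ H := by
  have h1 : ∀ k, G.coeff k ∈ (Int.castRingHom ℂ).range :=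
    coeff_mem_of_aeval_jq_mem _ G.natDegree G le_rfl (fun n => by
      obtain ⟨m, hm⟩ := h n
      exact ⟨m, by rw [hm]; simp⟩)
  have h2 : G ∈ Polynomial.lifts (Int.castRingHom ℂ) :=
    (Polynomial.lifts_iff_coeff_lifts G).mpr (fun n => by
      obtain ⟨m, hm⟩ := h1 n
      exact ⟨m, hm⟩)
  obtain ⟨H, hH⟩ := h2
  refine ⟨H, ?_⟩
  rw [evJ_eq_aeval_map, ← hH]
  rfl

theorem evJ_injective (R : Type*) [CommRing R] [CharZero R] : Function.Injective (evJ R) := by
  rw [injective_iff_map_eq_zero]
  intro H hH
  rw [evJ_eq_aeval_map] at hH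
  have h1 := coeff_aeval_jq_neg_natDegree (H.map (Int.castRingHom R))
  rw [hH, HahnSeries.coeff_zero] at h1
  have h2 : H.map (Int.castRingHom R) = 0 := Polynomial.leadingCoeff_eq_zero.mp h1.symm
  exact (Polynomial.map_eq_zero_iff (RingHom.injective_int _)).mp h2

theorem qExpand_evJ_injective (R : Type*) [CommRing R] [CharZero R] (p : ℕ) [NeZero p] :
    Function.Injective (evV R p) :=
  (qExpand_injective p).comp (evJ_injective R)

section Order

variable {K : Type*} [Field K]

theorem order_qExpand (N : ℕ) [NeZero N] (F : LaurentSeries K) :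
    (qExpand K N F).order = N * F.order := by
  rcases eq_or_ne F 0 with rfl | hF
  · simp
  have hN : (0 : ℤ) < N := by exact_mod_cast Nat.pos_of_ne_zero (NeZero.ne N)
  apply le_antisymm
  · refine HahnSeries.order_le_of_coeff_ne_zero ?_
    rw [qExpand_coeff_mul]
    exact HahnSeries.coeff_order_eq_zero.not.mpr hF
  · have hF' : qExpand K N F ≠ 0 := fun h => hF ((map_eq_zero_iff _ (qExpand_injective N)).mp h)
    by_contra hlt
    push Not at hlt
    have h1 : (qExpand K N F).coeff (qExpand K N F).order ≠ 0 :=
      HahnSeries.coeff_order_eq_zero.not.mpr hF'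
    apply h1
    by_cases hd : (N : ℤ) ∣ (qExpand K N F).order
    · obtain ⟨m, hm⟩ := hd
      rw [hm, qExpand_coeff_mul]
      refine HahnSeries.coeff_eq_zero_of_lt_order ?_
      rw [hm] at hlt
      exact lt_of_mul_lt_mul_left hlt hN.le
    · exact qExpand_coeff_of_not_dvd _ _ hd

theorem order_twist (u : Kˣ) (F : LaurentSeries K) : (twist u F).order = F.order := by
  rcases eq_or_ne F 0 with rfl | hF
  · simp
  have hF' : twist u F ≠ 0 := fun h => hF ((map_eq_zero_iff _ (twist_injective u)).mp h)
  apply le_antisymm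
  · refine HahnSeries.order_le_of_coeff_ne_zero ?_
    rw [twist_coeff]
    exact mul_ne_zero (Units.ne_zero _) (HahnSeries.coeff_order_eq_zero.not.mpr hF)
  · refine HahnSeries.order_le_of_coeff_ne_zero ?_
    have := HahnSeries.coeff_order_eq_zero.not.mpr hF'
    rw [twist_coeff] at this
    exact right_ne_zero_of_mul this

theorem order_prod {ι : Type*} (s : Finset ι) (f : ι → LaurentSeries K)
    (hf : ∀ i ∈ s, f i ≠ 0) : (∏ i ∈ s, f i).order = ∑ i ∈ s, (f i).order := by
  classical
  induction s using Finset.induction_on with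
  | empty => simp
  | insert a s ha ih =>
    rw [Finset.prod_insert ha, Finset.sum_insert ha, HahnSeries.order_mul
      (hf a (Finset.mem_insert_self _ _))
      (Finset.prod_ne_zero_iff.mpr fun i hi => hf i (Finset.mem_insert_of_mem hi)),
      ih fun i hi => hf i (Finset.mem_insert_of_mem hi)]

theorem dL_ne_zero : dL K ≠ 0 := left_ne_zero_of_mul_eq_one (dL_mul_dInv K)

theorem dInv_ne_zero : dInv K ≠ 0 := right_ne_zero_of_mul_eq_one (dL_mul_dInv K)

theorem order_ofPowerSeries_of_constantCoeff {P : PowerSeries K}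
    (hP : PowerSeries.constantCoeff P = 1) : (HahnSeries.ofPowerSeries ℤ K P).order = 0 := by
  have h1 : (HahnSeries.ofPowerSeries ℤ K P).coeff 0 ≠ 0 := by
    rw [show (0 : ℤ) = ((0 : ℕ) : ℤ) from rfl, HahnSeries.ofPowerSeries_apply_coeff,
      PowerSeries.coeff_zero_eq_constantCoeff, hP]
    exact one_ne_zero
  apply le_antisymm (HahnSeries.order_le_of_coeff_ne_zero h1)
  by_contra hlt
  push Not at hlt
  refine HahnSeries.coeff_order_eq_zero.not.mpr ?_ (ofPowerSeries_coeff_of_neg P hlt)
  intro h
  rw [h] at h1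
  simp at h1

theorem order_single_one (n : ℤ) : (HahnSeries.single n (1 : K)).order = n :=
  HahnSeries.order_single one_ne_zero

theorem constantCoeff_map_eq_one {P : PowerSeries ℤ} (hP : PowerSeries.constantCoeff P = 1) :
    PowerSeries.constantCoeff (P.map (Int.castRingHom K)) = 1 := by
  rw [← PowerSeries.coeff_zero_eq_constantCoeff, PowerSeries.coeff_map,
    PowerSeries.coeff_zero_eq_constantCoeff, hP]
  simp

theorem ofPowerSeries_ne_zero_of_constantCoeff {P : PowerSeries K}
    (hP : PowerSeries.constantCoeff P = 1) : HahnSeries.ofPowerSeries ℤ K P ≠ 0 := by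
  intro h
  have h1 : (HahnSeries.ofPowerSeries ℤ K P).coeff ((0 : ℕ) : ℤ) = 1 := by
    rw [HahnSeries.ofPowerSeries_apply_coeff,
      PowerSeries.coeff_zero_eq_constantCoeff, hP]
  rw [h] at h1
  simp at h1

theorem order_dL : (dL K).order = 1 := by
  rw [dL_eq, HahnSeries.order_mul (HahnSeries.single_ne_zero one_ne_zero)
    (ofPowerSeries_ne_zero_of_constantCoeff
      (constantCoeff_map_eq_one constantCoeff_dedekindEtaUnit)),
    order_single_one, order_ofPowerSeries_of_constantCoeff
      (constantCoeff_map_eq_one constantCoeff_dedekindEtaUnit), add_zero]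

theorem order_dInv : (dInv K).order = -1 := by
  rw [dInv, HahnSeries.order_mul (HahnSeries.single_ne_zero one_ne_zero)
    (ofPowerSeries_ne_zero_of_constantCoeff
      (constantCoeff_map_eq_one constantCoeff_dedekindEtaUnitInv)),
    order_single_one, order_ofPowerSeries_of_constantCoeff
      (constantCoeff_map_eq_one constantCoeff_dedekindEtaUnitInv), add_zero]

theorem order_jqModC : (jqModC K).order = -1 := by
  rw [jqModC, HahnSeries.order_mul (HahnSeries.single_ne_zero one_ne_zero)
    (ofPowerSeries_ne_zero_of_constantCoeff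
      (constantCoeff_map_eq_one constantCoeff_jNum)),
    order_single_one, order_ofPowerSeries_of_constantCoeff
      (constantCoeff_map_eq_one constantCoeff_jNum), add_zero]

theorem leadingCoeff_jqModC : (jqModC K).leadingCoeff = 1 := by
  rw [HahnSeries.leadingCoeff_eq, order_jqModC, coeff_jqModC_neg_one]

theorem order_natCast {n : ℕ} (h : (n : K) ≠ 0) : ((n : LaurentSeries K)).order = 0 := by
  have : (n : LaurentSeries K) = HahnSeries.single 0 (n : K) := by
    rw [← algebraMap_eq_single, map_natCast]
  rw [this, HahnSeries.order_single h]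

theorem natCast_laurent_ne_zero {n : ℕ} (h : (n : K) ≠ 0) : (n : LaurentSeries K) ≠ 0 := by
  have : (n : LaurentSeries K) = HahnSeries.single 0 (n : K) := by
    rw [← algebraMap_eq_single, map_natCast]
  rw [this]
  exact HahnSeries.single_ne_zero h

end Order

end Fermat.Agent.ModPoly
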