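import Mathlib
import Fermat.Prelude.Def_ModularCurve_X0ModL
import Fermat.Agent.ModPoly.Formal
import Fermat.Agent.ModPoly.Orders
import Fermat.Agent.ModPoly.Newton

/-!
# The tuples `(Δ_i/Δ)`, `(E₄³_i/Δ)`, `(j_i)` and their symmetric functions
-/

set_option autoImplicit false

noncomputable section

open HahnSeries ModularCurve

namespace Fermat.Agent.ModPoly

section General

variable (R : Type*) [CommRing R] (p : ℕ) [NeZero p] (u : Rˣ)

/-- the tuple of conjugates of `p^12 Δ(q^p)/Δ(q)` -/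
def aT (i : Option (Fin p)) : LaurentSeries R :=
  wtL p 12 i * conjL p u i (dL R) * qExpand R p (dInv R)

/-- the tuple of conjugates of `p^12 E₄(q^p)^3/Δ(q)` -/
def bT (i : Option (Fin p)) : LaurentSeries R :=
  wtL p 12 i * conjL p u i (eL R) * qExpand R p (dInv R)

/-- the tuple of conjugates of `j(q^p)` -/
def jT (i : Option (Fin p)) : LaurentSeries R := conjL p u i (jqModC R)

theorem bT_eq (i : Option (Fin p)) : bT R p u i = jT R p u i * aT R p u i := by
  rw [bT, jT, aT, eL_eq, map_mul]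
  ring

omit [NeZero p] in
theorem wtL_pow (k n : ℕ) (i : Option (Fin p)) :
    (wtL p k i : LaurentSeries R) ^ n = wtL p (k * n) i := by
  rcases i with _ | b
  · simp only [wtL, pow_mul]
  · simp only [wtL, one_pow]

variable {R} in
theorem coeffMap_conjL {S : Type*} [CommRing S] (f : R →+* S) (i : Option (Fin p))
    (F : LaurentSeries R) :
    coeffMap f (conjL p u i F) = conjL p (Units.map f u) i (coeffMap f F) := by
  rcases i with _ | b
  · simp only [conjL, RingHom.comp_apply, coeffMap_qExpand]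
  · simp only [conjL, coeffMap_twist, map_pow]

omit [NeZero p] in
variable {R} in
theorem coeffMap_wtL {S : Type*} [CommRing S] (f : R →+* S) (k : ℕ) (i : Option (Fin p)) :
    coeffMap f (wtL p k i) = wtL p k i := by
  rcases i with _ | b
  · simp [wtL]
  · simp [wtL]

variable {R} in
theorem coeffMap_aT {S : Type*} [CommRing S] (f : R →+* S) (i : Option (Fin p)) :
    coeffMap f (aT R p u i) = aT S p (Units.map f u) i := by
  rw [aT, aT, map_mul, map_mul, coeffMap_wtL, coeffMap_conjL, coeffMap_qExpand, coeffMap_dL,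
    coeffMap_dInv]

variable {R} in
theorem coeffMap_jT {S : Type*} [CommRing S] (f : R →+* S) (i : Option (Fin p)) :
    coeffMap f (jT R p u i) = jT S p (Units.map f u) i := by
  rw [jT, jT, coeffMap_conjL, coeffMap_jqModC]

end General

section Complex

variable (p : ℕ) [hp : Fact p.Prime] {u : ℂˣ}

/-- `ℚ[j(t^p)]` inside `ℂ((t))`. -/
def SQ (p : ℕ) [NeZero p] : Subalgebra ℚ (LaurentSeries ℂ) :=
  Algebra.adjoin ℚ {qExpand ℂ p (jqModC ℂ)}

instance neZero_of_fact_prime : NeZero p := ⟨hp.out.ne_zero⟩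

theorem qj_mem_SQ (p : ℕ) [NeZero p] : qExpand ℂ p (jqModC ℂ) ∈ SQ p :=
  Algebra.subset_adjoin (Set.mem_singleton _)

theorem evV_mem_SQ (p : ℕ) [NeZero p] (H : Polynomial ℤ) : evV ℂ p H ∈ SQ p := by
  induction H using Polynomial.induction_on' with
  | add f g hf hg => rw [map_add]; exact Subalgebra.add_mem _ hf hg
  | monomial n a =>
    have h1 : evV ℂ p (Polynomial.monomial n a) =
        ((a : ℤ) : LaurentSeries ℂ) * (qExpand ℂ p (jqModC ℂ)) ^ n := by
      rw [evV, RingHom.comp_apply, evJ, Polynomial.coe_eval₂RingHom, Polynomial.eval₂_monomial,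
        map_mul, map_pow]
      simp only [eq_intCast, map_intCast]
    rw [h1]
    exact Subalgebra.mul_mem _ (intCast_mem _ _) (Subalgebra.pow_mem _ (qj_mem_SQ p) _)

/-- the integral version of the Hecke operator -/
def heckeInt (k p : ℕ) (P : PowerSeries ℤ) : PowerSeries ℤ :=
  .mk fun n => p * P.coeff (n * p) + if p ∣ n then (p : ℤ) ^ k * P.coeff (n / p) else 0

theorem heckeInt_map (k : ℕ) (P : PowerSeries ℤ) :
    (heckeInt k p P).map (Int.castRingHom ℂ) =
      (p : PowerSeries ℂ) * heckePS k p (P.map (Int.castRingHom ℂ)) := by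
  have hp0 : (p : ℂ) ≠ 0 := by exact_mod_cast hp.out.ne_zero
  ext n
  have : ((p : PowerSeries ℂ)) = PowerSeries.C (p : ℂ) := by simp
  rw [this, PowerSeries.coeff_C_mul, PowerSeries.coeff_map, heckeInt, heckePS,
    PowerSeries.coeff_mk, PowerSeries.coeff_mk, PowerSeries.coeff_map, PowerSeries.coeff_map]
  split_ifs
  · rw [zpow_sub_one₀ hp0, zpow_natCast]
    simp only [map_add, map_mul, map_natCast, map_pow]
    field_simp
  · simp

theorem isLevelOne_monomial (n m : ℕ) :
    IsLevelOne ((12 * (n + m) : ℕ) : ℤ) ((deltaPS ^ n * e4cube ^ m).map (Int.castRingHom ℂ)) := by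
  rw [map_mul, map_pow, map_pow]
  exact ((isLevelOne_delta.pow n).mul (isLevelOne_e4cube.pow m)).cast (by push_cast; ring)

variable (hu : IsPrimitiveRoot u p)

include hu in
/-- Power sums of monomials in `a, b` are integer polynomials in `j(t^p)`. -/
theorem sum_aT_bT (n m : ℕ) :
    ∃ H : Polynomial ℤ, ∑ i, aT ℂ p u i ^ n * bT ℂ p u i ^ m = evV ℂ p H := by
  obtain ⟨G, hG⟩ := IsLevelOne.exists_polynomial (n + m)
    (((isLevelOne_monomial n m).heckePS hp.out).cast (by push_cast; ring))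
  have htr := trace_formula p hu (12 * (n + m)) ((deltaPS ^ n * e4cube ^ m).map (Int.castRingHom ℂ))
  have h1 : HahnSeries.ofPowerSeries ℤ ℂ ((deltaPS ^ n * e4cube ^ m).map (Int.castRingHom ℂ)) =
      dL ℂ ^ n * eL ℂ ^ m := by
    rw [map_mul, map_mul, map_pow, map_pow, map_pow, map_pow]; rfl
  have h2 : ∑ i, aT ℂ p u i ^ n * bT ℂ p u i ^ m =
      qExpand ℂ p (dInv ℂ) ^ (n + m) * ∑ i, wtL p (12 * (n + m)) i *
        conjL p u i (HahnSeries.ofPowerSeries ℤ ℂ
          ((deltaPS ^ n * e4cube ^ m).map (Int.castRingHom ℂ))) := by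
    rw [Finset.mul_sum]
    refine Finset.sum_congr rfl fun i _ => ?_
    rw [h1, aT, bT, map_mul, map_pow, map_pow, ← wtL_pow]
    ring
  rw [h2, htr, hG]
  have h3 : qExpand ℂ p (dInv ℂ) ^ (n + m) * ((p : LaurentSeries ℂ) *
      qExpand ℂ p (dL ℂ ^ (n + m) * Polynomial.aeval (jqModC ℂ) G)) =
      qExpand ℂ p ((dL ℂ * dInv ℂ) ^ (n + m) *
        ((p : LaurentSeries ℂ) * Polynomial.aeval (jqModC ℂ) G)) := by
    rw [map_mul, map_mul, map_mul, map_pow, map_pow, map_mul, map_natCast]
    ring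
  have h5 : (p : LaurentSeries ℂ) * Polynomial.aeval (jqModC ℂ) G =
      Polynomial.aeval (jqModC ℂ) (Polynomial.C (p : ℂ) * G) := by
    rw [map_mul, Polynomial.aeval_C, map_natCast]
  obtain ⟨H, hH⟩ := exists_int_polynomial (Polynomial.C (p : ℂ) * G) (by
    intro l
    have h6 : Polynomial.aeval (jqModC ℂ) (Polynomial.C (p : ℂ) * G) =
        coeffMap (Int.castRingHom ℂ) (dInv ℤ ^ (n + m) * HahnSeries.ofPowerSeries ℤ ℤ
          (heckeInt (12 * (n + m)) p (deltaPS ^ n * e4cube ^ m))) := by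
      rw [← h5, map_mul (coeffMap _), map_pow, coeffMap_dInv, coeffMap_ofPowerSeries,
        heckeInt_map, map_mul (HahnSeries.ofPowerSeries ℤ ℂ), map_natCast, hG]
      have h7 : (dL ℂ * dInv ℂ) ^ (n + m) = 1 := by rw [dL_mul_dInv, one_pow]
      rw [mul_pow] at h7
      linear_combination (-((p : LaurentSeries ℂ) * Polynomial.aeval (jqModC ℂ) G)) * h7
    exact ⟨_, by rw [h6, coeffMap_coeff]; rfl⟩)
  refine ⟨H, ?_⟩
  rw [h3, dL_mul_dInv, one_pow, one_mul, h5, hH, evV, RingHom.comp_apply]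

end Complex

end Fermat.Agent.ModPoly
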