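import Mathlib
import Fermat.Agent.ModPoly.Tuple

/-!
# Symmetric functions of elements of the algebra generated by the tuples `a`, `b`
-/

set_option autoImplicit false

noncomputable section

open HahnSeries ModularCurve

namespace Fermat.Agent.ModPoly

variable (p : ℕ) [hp : Fact p.Prime] (u : ℂˣ)

/-- The algebra of tuples generated over `ℚ[j(t^p)]` by `a` and `b`. -/
def tupleAlg : Subalgebra (SQ p) (Option (Fin p) → LaurentSeries ℂ) :=
  Algebra.adjoin (SQ p) {aT ℂ p u, bT ℂ p u}

variable {p u}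

theorem aT_mem : aT ℂ p u ∈ tupleAlg p u := Algebra.subset_adjoin (by simp)

theorem bT_mem : bT ℂ p u ∈ tupleAlg p u := Algebra.subset_adjoin (by simp)

theorem sum_mem_SQ (hu : IsPrimitiveRoot u p) {x : Option (Fin p) → LaurentSeries ℂ}
    (hx : x ∈ tupleAlg p u) : ∑ i, x i ∈ SQ p := by
  have h1 : x ∈ Submodule.span (SQ p)
      (Submonoid.closure {aT ℂ p u, bT ℂ p u} : Set (Option (Fin p) → LaurentSeries ℂ)) := by
    rw [← Algebra.adjoin_eq_span]
    exact hx
  clear hx
  induction h1 using Submodule.span_induction with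
  | mem y hy =>
    obtain ⟨n, m, rfl⟩ := (Submonoid.mem_closure_pair _ _ _).mp hy
    obtain ⟨H, hH⟩ := sum_aT_bT p hu n m
    simp only [Pi.mul_apply, Pi.pow_apply]
    rw [hH]
    exact evV_mem_SQ p H
  | zero => simp
  | add y z _ _ hy hz =>
    simp only [Pi.add_apply]
    rw [Finset.sum_add_distrib]
    exact Subalgebra.add_mem _ hy hz
  | smul c y _ hy =>
    simp only [Pi.smul_apply]
    rw [← Finset.smul_sum]
    exact Subalgebra.mul_mem _ c.2 hy

theorem exists_charpoly (hu : IsPrimitiveRoot u p) {x : Option (Fin p) → LaurentSeries ℂ}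
    (hx : x ∈ tupleAlg p u) :
    ∃ P : Polynomial (SQ p), P.map (algebraMap (SQ p) (LaurentSeries ℂ)) =
      ∏ i, (Polynomial.X - Polynomial.C (x i)) :=
  exists_polynomial_of_psum_mem (SQ p) x fun k => by
    have := sum_mem_SQ hu (Subalgebra.pow_mem _ hx k)
    simpa only [Pi.pow_apply] using this

theorem order_aeval_jq {K : Type*} [Field K] {G : Polynomial K} (hG : G ≠ 0) :
    (Polynomial.aeval (jqModC K) G).order = -(G.natDegree : ℤ) := by
  have h1 : (Polynomial.aeval (jqModC K) G).coeff (-(G.natDegree : ℤ)) ≠ 0 := by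
    rw [coeff_aeval_jq_neg_natDegree]
    exact Polynomial.leadingCoeff_ne_zero.mpr hG
  apply le_antisymm (HahnSeries.order_le_of_coeff_ne_zero h1)
  by_contra hlt
  push Not at hlt
  have h2 := coeff_aeval_jq_of_lt G hlt
  refine HahnSeries.coeff_order_eq_zero.not.mpr ?_ h2
  intro h
  rw [h] at h1
  simp at h1

theorem conjL_ne_zero (i : Option (Fin p)) {F : LaurentSeries ℂ} (hF : F ≠ 0) :
    conjL p u i F ≠ 0 := by
  rcases i with _ | b
  · simp only [conjL, RingHom.comp_apply]
    exact fun h => hF ((map_eq_zero_iff _ (qExpand_injective p)).mp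
      ((map_eq_zero_iff _ (qExpand_injective p)).mp h))
  · simp only [conjL]
    exact fun h => hF ((map_eq_zero_iff _ (twist_injective _)).mp h)

theorem aT_ne_zero (i : Option (Fin p)) : aT ℂ p u i ≠ 0 := by
  have hp0 : (p : ℂ) ≠ 0 := by exact_mod_cast hp.out.ne_zero
  rw [aT]
  refine mul_ne_zero (mul_ne_zero ?_ (conjL_ne_zero i dL_ne_zero)) ?_
  · rcases i with _ | b
    · exact pow_ne_zero _ (natCast_laurent_ne_zero hp0)
    · exact one_ne_zero
  · exact fun h => dInv_ne_zero ((map_eq_zero_iff _ (qExpand_injective p)).mp h)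

theorem order_aT_none : (aT ℂ p u none).order = p * p - p := by
  have hp0 : (p : ℂ) ≠ 0 := by exact_mod_cast hp.out.ne_zero
  have h1 := conjL_ne_zero (u := u) (none : Option (Fin p)) (dL_ne_zero (K := ℂ))
  have h2 : qExpand ℂ p (dInv ℂ) ≠ 0 :=
    fun h => dInv_ne_zero ((map_eq_zero_iff _ (qExpand_injective p)).mp h)
  have h3 : (wtL p 12 none : LaurentSeries ℂ) ≠ 0 := pow_ne_zero _ (natCast_laurent_ne_zero hp0)
  rw [aT, HahnSeries.order_mul (mul_ne_zero h3 h1) h2, HahnSeries.order_mul h3 h1]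
  simp only [wtL, conjL, RingHom.comp_apply, order_qExpand, order_dL, order_dInv,
    HahnSeries.order_pow, order_natCast hp0]
  ring

theorem order_aT_some (b : Fin p) : (aT ℂ p u (some b)).order = 1 - p := by
  have h1 := conjL_ne_zero (u := u) (some b : Option (Fin p)) (dL_ne_zero (K := ℂ))
  have h2 : qExpand ℂ p (dInv ℂ) ≠ 0 :=
    fun h => dInv_ne_zero ((map_eq_zero_iff _ (qExpand_injective p)).mp h)
  have h3 : (wtL p 12 (some b) : LaurentSeries ℂ) = 1 := rfl
  rw [aT, h3, one_mul, HahnSeries.order_mul h1 h2]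
  simp only [conjL, order_qExpand, order_twist, order_dL, order_dInv]
  ring

theorem order_prod_aT : (∏ i, aT ℂ p u i).order = 0 := by
  rw [order_prod _ _ fun i _ => aT_ne_zero i, Fintype.sum_option, order_aT_none]
  simp only [order_aT_some, Finset.sum_const, Finset.card_univ, Fintype.card_fin, nsmul_eq_mul]
  ring

theorem exists_rat_of_order_eq_zero {z : LaurentSeries ℂ} (hz : z ∈ SQ p) (h0 : z ≠ 0)
    (ho : z.order = 0) : ∃ c : ℚ, c ≠ 0 ∧ z = algebraMap ℚ (LaurentSeries ℂ) c := by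
  rw [SQ, Algebra.adjoin_singleton_eq_range_aeval] at hz
  obtain ⟨G, rfl⟩ := hz
  have h1 : Polynomial.aeval (qExpand ℂ p (jqModC ℂ)) G =
      qExpand ℂ p (Polynomial.aeval (jqModC ℂ) (G.map (algebraMap ℚ ℂ))) := by
    rw [Polynomial.aeval_def, Polynomial.aeval_def, Polynomial.eval₂_map, Polynomial.hom_eval₂]
    congr 1
    exact Subsingleton.elim _ _
  have hG : G ≠ 0 := by rintro rfl; simp at h0
  have hG' : G.map (algebraMap ℚ ℂ) ≠ 0 := (Polynomial.map_ne_zero_iff
    (algebraMap ℚ ℂ).injective).mpr hG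
  change (Polynomial.aeval (qExpand ℂ p (jqModC ℂ)) G).order = 0 at ho
  rw [h1, order_qExpand, order_aeval_jq hG', Polynomial.natDegree_map] at ho
  have hp0 : (p : ℤ) ≠ 0 := by exact_mod_cast hp.out.ne_zero
  have h2 : G.natDegree = 0 := by
    have := (mul_eq_zero.mp ho).resolve_left hp0
    omega
  rw [Polynomial.eq_C_of_natDegree_eq_zero h2] at hG ⊢
  refine ⟨G.coeff 0, fun h => hG (by rw [h, map_zero]), ?_⟩
  simp

theorem exists_inv (hu : IsPrimitiveRoot u p) :
    ∃ y ∈ tupleAlg p u, aT ℂ p u * y = 1 := by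
  obtain ⟨P, hP⟩ := exists_charpoly hu (aT_mem (u := u))
  have hP0 : algebraMap (SQ p) (LaurentSeries ℂ) (P.coeff 0) =
      (-1) ^ (p + 1) * ∏ i, aT ℂ p u i := by
    have h1 := congrArg (fun Q => Polynomial.coeff Q 0) hP
    simp only [Polynomial.coeff_map] at h1
    rw [h1, Polynomial.coeff_zero_eq_eval_zero, Polynomial.eval_prod]
    simp only [Polynomial.eval_sub, Polynomial.eval_X, Polynomial.eval_C, zero_sub]
    rw [show (fun i => -aT ℂ p u i) = fun i => (-1) * aT ℂ p u i from funext fun i => by ring,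
      Finset.prod_mul_distrib, Finset.prod_const, Finset.card_univ, Fintype.card_option,
      Fintype.card_fin]
  obtain ⟨c, hc0, hc⟩ := exists_rat_of_order_eq_zero (p := p) (z := ∏ i, aT ℂ p u i) (by
      have h2 : ∏ i, aT ℂ p u i = (-1) ^ (p + 1) * ((P.coeff 0 : SQ p) : LaurentSeries ℂ) := by
        have h3 : ((P.coeff 0 : SQ p) : LaurentSeries ℂ) = (-1) ^ (p + 1) * ∏ i, aT ℂ p u i := hP0
        rw [h3, ← mul_assoc, ← mul_pow]
        simp
      rw [h2]
      exact Subalgebra.mul_mem _ (Subalgebra.pow_mem _ (Subalgebra.neg_mem _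
        (Subalgebra.one_mem _)) _) (P.coeff 0).2)
    (Finset.prod_ne_zero_iff.mpr fun i _ => aT_ne_zero i) order_prod_aT
  have hev : Polynomial.aeval (aT ℂ p u) P = 0 := by
    funext i
    have h4 : (Polynomial.aeval (aT ℂ p u) P) i = Polynomial.aeval (aT ℂ p u i) P := by
      have h5 := Polynomial.aeval_algHom_apply
        (Pi.evalAlgHom (SQ p) (fun _ : Option (Fin p) => LaurentSeries ℂ) i) (aT ℂ p u) P
      exact h5.symm
    rw [h4, Polynomial.aeval_def, Polynomial.eval₂_eq_eval_map, hP, Polynomial.eval_prod]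
    exact Finset.prod_eq_zero (Finset.mem_univ i) (by simp)
  have h6 := congrArg (Polynomial.aeval (aT ℂ p u)) (Polynomial.divX_mul_X_add P)
  rw [hev, map_add, map_mul, Polynomial.aeval_X, Polynomial.aeval_C] at h6
  set c' : SQ p := algebraMap ℚ (SQ p) ((-1) ^ p * c⁻¹) with hc'
  refine ⟨c' • Polynomial.aeval (aT ℂ p u) P.divX, ?_, ?_⟩
  · refine Subalgebra.smul_mem _ ?_ _
    exact Algebra.adjoin_mono (by simp) (Polynomial.aeval_mem_adjoin_singleton (SQ p) (aT ℂ p u))
  · funext i
    have h7 := congrFun h6 i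
    simp only [Pi.add_apply, Pi.mul_apply, Pi.zero_apply] at h7
    change _ + algebraMap (SQ p) (LaurentSeries ℂ) (P.coeff 0) = 0 at h7
    rw [hP0, hc] at h7
    simp only [Pi.mul_apply, Pi.smul_apply, Pi.one_apply]
    have h8 : (c' • (Polynomial.aeval (aT ℂ p u) P.divX) i) =
        algebraMap ℚ (LaurentSeries ℂ) ((-1) ^ p * c⁻¹) *
          (Polynomial.aeval (aT ℂ p u) P.divX) i := rfl
    rw [h8, map_mul, map_inv₀, map_pow, map_neg, map_one]
    have h9 : algebraMap ℚ (LaurentSeries ℂ) c ≠ 0 := by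
      rw [ne_eq, map_eq_zero]
      exact hc0
    have h10 : ((-1 : LaurentSeries ℂ)) ^ p * (-1) ^ p = 1 := by
      have h11 : (-1 : LaurentSeries ℂ) * (-1) = 1 := by ring
      rw [← mul_pow, h11, one_pow]
    field_simp
    rw [pow_succ] at h7
    linear_combination (-1 : LaurentSeries ℂ) ^ p * h7 +
      (algebraMap ℚ (LaurentSeries ℂ) c) * h10

theorem jT_mem (hu : IsPrimitiveRoot u p) : jT ℂ p u ∈ tupleAlg p u := by
  obtain ⟨y, hy, hay⟩ := exists_inv hu
  have h1 : jT ℂ p u = bT ℂ p u * y := by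
    funext i
    have h2 := congrFun hay i
    simp only [Pi.mul_apply, Pi.one_apply] at h2 ⊢
    rw [bT_eq, mul_assoc, h2, mul_one]
  rw [h1]
  exact Subalgebra.mul_mem _ bT_mem hy

end Fermat.Agent.ModPoly
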