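import Mathlib
import Fermat.Agent.ModPoly.Symm

/-!
# Prime modular polynomials over `ℤ` and their product formula over any ring with `ζ_p`
-/

set_option autoImplicit false

noncomputable section

open HahnSeries ModularCurve

namespace Fermat.Agent.ModPoly

variable (p : ℕ) [hp : Fact p.Prime]

/-- `ℤ[ζ_p]` -/
abbrev Zw : Type := AdjoinRoot (Polynomial.cyclotomic p ℤ)

omit hp in
theorem root_pow_eq_one : (AdjoinRoot.root (Polynomial.cyclotomic p ℤ)) ^ p = 1 := by
  have h1 : Polynomial.cyclotomic p ℤ ∣ Polynomial.X ^ p - 1 := Polynomial.cyclotomic.dvd_X_pow_sub_one p ℤ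
  have h2 := (AdjoinRoot.mk_eq_zero (f := Polynomial.cyclotomic p ℤ)).mpr h1
  rw [map_sub, map_pow, AdjoinRoot.mk_X, map_one, sub_eq_zero] at h2
  exact h2

/-- the unit `ζ_p` of `ℤ[ζ_p]` -/
def uw : (Zw p)ˣ := Units.ofPowEqOne _ p (root_pow_eq_one p) hp.out.ne_zero

theorem coe_uw : ((uw p : (Zw p)ˣ) : Zw p) = AdjoinRoot.root (Polynomial.cyclotomic p ℤ) := rfl

section Lift

variable {R : Type*} [CommRing R] (v : Rˣ) (hv : (Polynomial.cyclotomic p R).IsRoot (v : R))

/-- `ℤ[ζ_p] → R`, `ζ_p ↦ v`. -/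
def liftZw : Zw p →+* R :=
  AdjoinRoot.lift (Int.castRingHom R) (v : R) (by
    rw [← Polynomial.eval_map, Polynomial.map_cyclotomic]
    exact hv)

omit hp in
theorem liftZw_root : liftZw p v hv (AdjoinRoot.root (Polynomial.cyclotomic p ℤ)) = v :=
  AdjoinRoot.lift_root _

theorem map_uw : Units.map (liftZw p v hv : Zw p →* R) (uw p) = v := by
  ext
  rw [Units.coe_map, MonoidHom.coe_coe, coe_uw]
  exact liftZw_root p v hv

end Lift

/-- a primitive `p`-th root of unity in `ℂ` -/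
theorem exists_unit_primitiveRoot : ∃ u : ℂˣ, IsPrimitiveRoot u p := by
  have h := Complex.isPrimitiveRoot_exp p hp.out.ne_zero
  exact ⟨(h.isUnit hp.out.ne_zero).unit, h.isUnit_unit hp.out.ne_zero⟩

variable {p} in
theorem isRoot_of_primitive {K : Type*} [Field K] {u : Kˣ} (hu : IsPrimitiveRoot u p) :
    (Polynomial.cyclotomic p K).IsRoot (u : K) := by
  have h : IsPrimitiveRoot (u : K) p := IsPrimitiveRoot.coe_units_iff.mpr hu
  exact h.isRoot_cyclotomic hp.out.pos

theorem liftZw_injective {u : ℂˣ} (hu : IsPrimitiveRoot u p) :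
    Function.Injective (liftZw p u (isRoot_of_primitive hu)) := by
  rw [injective_iff_map_eq_zero]
  intro x hx
  obtain ⟨f, rfl⟩ := AdjoinRoot.mk_surjective x
  rw [liftZw, AdjoinRoot.lift_mk] at hx
  have h1 : Polynomial.aeval (u : ℂ) f = 0 := by
    rw [Polynomial.aeval_def, RingHom.ext_int (algebraMap ℤ ℂ) (Int.castRingHom ℂ)]
    exact hx
  have h : IsPrimitiveRoot (u : ℂ) p := IsPrimitiveRoot.coe_units_iff.mpr hu
  rw [AdjoinRoot.mk_eq_zero, Polynomial.cyclotomic_eq_minpoly h hp.out.pos]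
  exact minpoly.isIntegrallyClosed_dvd (h.isIntegral hp.out.pos) h1

omit hp in
theorem isIntegral_Zw (x : Zw p) : IsIntegral ℤ x := by
  have : Module.Finite ℤ (Zw p) := (Polynomial.cyclotomic.monic p ℤ).finite_adjoinRoot
  exact IsIntegral.of_finite ℤ x

/-- integral elements of `ℚ[j(t^p)]` -/
theorem exists_evV_of_isIntegral {z : LaurentSeries ℂ} (hz : z ∈ SQ p)
    (hi : ∀ n, IsIntegral ℤ (z.coeff n)) : ∃ H : Polynomial ℤ, z = evV ℂ p H := by
  rw [SQ, Algebra.adjoin_singleton_eq_range_aeval] at hz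
  obtain ⟨G, rfl⟩ := hz
  have h1 : Polynomial.aeval (qExpand ℂ p (jqModC ℂ)) G =
      qExpand ℂ p (Polynomial.aeval (jqModC ℂ) (G.map (algebraMap ℚ ℂ))) := by
    rw [Polynomial.aeval_def, Polynomial.aeval_def, Polynomial.eval₂_map, Polynomial.hom_eval₂]
    congr 1
    exact Subsingleton.elim _ _
  change ∀ n, IsIntegral ℤ ((Polynomial.aeval (qExpand ℂ p (jqModC ℂ)) G).coeff n) at hi
  change ∃ H : Polynomial ℤ, Polynomial.aeval (qExpand ℂ p (jqModC ℂ)) G = _
  rw [h1] at hi ⊢
  obtain ⟨H, hH⟩ := exists_int_polynomial (G.map (algebraMap ℚ ℂ)) (by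
    intro n
    have h2 := hi (p * n)
    rw [qExpand_coeff_mul] at h2
    have h3 : ∃ r : ℚ, (Polynomial.aeval (jqModC ℂ) (G.map (algebraMap ℚ ℂ))).coeff n =
        algebraMap ℚ ℂ r := by
      rw [coeff_aeval_jq]
      refine ⟨∑ k ∈ Finset.range ((G.map (algebraMap ℚ ℂ)).natDegree + 1),
        G.coeff k * ((jqModC ℤ ^ k).coeff n : ℤ), ?_⟩
      rw [map_sum]
      refine Finset.sum_congr rfl fun k _ => ?_
      rw [map_mul, Polynomial.coeff_map]
      congr 1
      have h : jqModC ℂ ^ k = coeffMap (Int.castRingHom ℂ) (jqModC ℤ ^ k) := by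
        rw [map_pow, coeffMap_jqModC]
      rw [h, coeffMap_coeff]
      simp
    obtain ⟨r, hr⟩ := h3
    rw [hr] at h2 ⊢
    have h4 : IsIntegral ℤ r := (isIntegral_algebraMap_iff (algebraMap ℚ ℂ).injective).mp h2
    obtain ⟨m, hm⟩ := IsIntegrallyClosed.isIntegral_iff.mp h4
    exact ⟨m, by rw [← hm]; simp⟩)
  exact ⟨H, by rw [hH, evV, RingHom.comp_apply]⟩

/-- generic existence statement over `ℂ`, with transfer -/
theorem exists_charpoly_int {u : ℂˣ} (hu : IsPrimitiveRoot u p)
    {x : Option (Fin p) → LaurentSeries ℂ} (hx : x ∈ tupleAlg p u)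
    (y : Option (Fin p) → LaurentSeries (Zw p))
    (hy : ∀ i, x i = coeffMap (liftZw p u (isRoot_of_primitive hu)) (y i)) :
    ∃ Φ : Polynomial (Polynomial ℤ), Φ.Monic ∧ Φ.natDegree = p + 1 ∧
      Φ.map (evV (Zw p) p) = ∏ i, (Polynomial.X - Polynomial.C (y i)) := by
  obtain ⟨P, hP⟩ := exists_charpoly hu hx
  set φ := liftZw p u (isRoot_of_primitive hu) with hφ
  set Q : Polynomial (LaurentSeries ℂ) := ∏ i, (Polynomial.X - Polynomial.C (x i)) with hQ
  have hQy : Q = (∏ i, (Polynomial.X - Polynomial.C (y i))).map (coeffMap φ) := by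
    rw [hQ, Polynomial.map_prod]
    refine Finset.prod_congr rfl fun i _ => ?_
    rw [Polynomial.map_sub, Polynomial.map_X, Polynomial.map_C, hy i]
  have hQm : Q.Monic := Polynomial.monic_prod_of_monic _ _ fun i _ => Polynomial.monic_X_sub_C _
  have hQd : Q.natDegree = p + 1 := by
    rw [hQ, Polynomial.natDegree_finsetProd_X_sub_C_eq_card]
    simp
  have hlift : Q ∈ Polynomial.lifts (evV ℂ p) := by
    rw [Polynomial.lifts_iff_coeff_lifts]
    intro k
    obtain ⟨H, hH⟩ := exists_evV_of_isIntegral p (z := Q.coeff k) (by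
      rw [← hP, Polynomial.coeff_map]
      exact (P.coeff k).2) (by
      intro n
      rw [hQy, Polynomial.coeff_map, coeffMap_coeff]
      exact (isIntegral_Zw p _).map φ.toIntAlgHom)
    exact ⟨H, hH.symm⟩
  obtain ⟨Φ, hΦ, hΦd, hΦm⟩ := Polynomial.lifts_and_natDegree_eq_and_monic hlift hQm
  refine ⟨Φ, hΦm, hΦd.trans hQd, ?_⟩
  apply Polynomial.map_injective (coeffMap φ) (coeffMap_injective (liftZw_injective p hu))
  rw [← hQy, ← hΦ, Polynomial.map_map]
  congr 1
  exact RingHom.ext fun H => coeffMap_evV φ p H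

theorem exists_sum_int {u : ℂˣ} (hu : IsPrimitiveRoot u p)
    {x : Option (Fin p) → LaurentSeries ℂ} (hx : x ∈ tupleAlg p u)
    (y : Option (Fin p) → LaurentSeries (Zw p))
    (hy : ∀ i, x i = coeffMap (liftZw p u (isRoot_of_primitive hu)) (y i)) :
    ∃ S : Polynomial ℤ, evV (Zw p) p S = ∑ i, y i := by
  set φ := liftZw p u (isRoot_of_primitive hu) with hφ
  have h1 : ∑ i, x i = coeffMap φ (∑ i, y i) := by
    rw [map_sum]
    exact Finset.sum_congr rfl fun i _ => hy i
  obtain ⟨H, hH⟩ := exists_evV_of_isIntegral p (sum_mem_SQ hu hx) (by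
    intro n
    rw [h1, coeffMap_coeff]
    exact (isIntegral_Zw p _).map φ.toIntAlgHom)
  refine ⟨H, coeffMap_injective (liftZw_injective p hu) ?_⟩
  rw [← h1, hH, coeffMap_evV]

theorem exists_modPoly : ∃ Φ : Polynomial (Polynomial ℤ), Φ.Monic ∧ Φ.natDegree = p + 1 ∧
    Φ.map (evV (Zw p) p) = ∏ i, (Polynomial.X - Polynomial.C (jT (Zw p) p (uw p) i)) := by
  obtain ⟨u, hu⟩ := exists_unit_primitiveRoot p
  refine exists_charpoly_int p hu (jT_mem hu) _ fun i => ?_
  rw [coeffMap_jT, map_uw]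

/-- The modular polynomial `Φ_p(Y)(X)` for a prime `p`: a polynomial in `X` over `ℤ[Y]`. -/
def modPoly : Polynomial (Polynomial ℤ) := (exists_modPoly p).choose

theorem modPoly_monic : (modPoly p).Monic := (exists_modPoly p).choose_spec.1

theorem modPoly_natDegree : (modPoly p).natDegree = p + 1 := (exists_modPoly p).choose_spec.2.1

theorem exists_deltaPoly : ∃ Φ : Polynomial (Polynomial ℤ), Φ.Monic ∧ Φ.natDegree = p + 1 ∧
    Φ.map (evV (Zw p) p) = ∏ i, (Polynomial.X - Polynomial.C (aT (Zw p) p (uw p) i)) := by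
  obtain ⟨u, hu⟩ := exists_unit_primitiveRoot p
  refine exists_charpoly_int p hu (aT_mem) _ fun i => ?_
  rw [coeffMap_aT, map_uw]

/-- The polynomial over `ℤ[Y]` with roots `p^12 Δ(q^p)/Δ(q)`, `Δ(ζ^b q^{1/p})/Δ(q)`. -/
def deltaPoly : Polynomial (Polynomial ℤ) := (exists_deltaPoly p).choose

theorem deltaPoly_monic : (deltaPoly p).Monic := (exists_deltaPoly p).choose_spec.1

theorem deltaPoly_natDegree : (deltaPoly p).natDegree = p + 1 :=
  (exists_deltaPoly p).choose_spec.2.1

theorem exists_mixedSum (k : ℕ) : ∃ S : Polynomial ℤ,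
    evV (Zw p) p S = ∑ i, aT (Zw p) p (uw p) i * jT (Zw p) p (uw p) i ^ k := by
  obtain ⟨u, hu⟩ := exists_unit_primitiveRoot p
  refine exists_sum_int p hu (x := aT ℂ p u * jT ℂ p u ^ k)
    (Subalgebra.mul_mem _ aT_mem (Subalgebra.pow_mem _ (jT_mem hu) k)) _ fun i => ?_
  rw [Pi.mul_apply, Pi.pow_apply, map_mul, map_pow, coeffMap_jT, coeffMap_aT, map_uw]

/-- The mixed power sums `∑ a_i j_i^k` as polynomials in `j`. -/
def mixedSum (k : ℕ) : Polynomial ℤ := (exists_mixedSum p k).choose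

section AnyRing

variable {R : Type*} [CommRing R] {v : Rˣ} (hv : (Polynomial.cyclotomic p R).IsRoot (v : R))

include hv in
/-- **Product formula** for the modular polynomial over any ring with a root of the `p`-th
cyclotomic polynomial: `Φ_p(X, j(t^p)) = (X - j(t^{p²})) ∏_b (X - j(v^b t))`. -/
theorem modPoly_map : (modPoly p).map (evV R p) =
    ∏ i, (Polynomial.X - Polynomial.C (jT R p v i)) := by
  have h := congrArg (Polynomial.map (coeffMap (liftZw p v hv))) (exists_modPoly p).choose_spec.2.2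
  rw [Polynomial.map_map, Polynomial.map_prod] at h
  have h2 : (coeffMap (liftZw p v hv)).comp (evV (Zw p) p) = evV R p :=
    RingHom.ext fun H => coeffMap_evV _ p H
  rw [h2] at h
  rw [modPoly, h]
  refine Finset.prod_congr rfl fun i _ => ?_
  rw [Polynomial.map_sub, Polynomial.map_X, Polynomial.map_C, coeffMap_jT, map_uw]

include hv in
theorem deltaPoly_map : (deltaPoly p).map (evV R p) =
    ∏ i, (Polynomial.X - Polynomial.C (aT R p v i)) := by
  have h := congrArg (Polynomial.map (coeffMap (liftZw p v hv))) (exists_deltaPoly p).choose_spec.2.2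
  rw [Polynomial.map_map, Polynomial.map_prod] at h
  have h2 : (coeffMap (liftZw p v hv)).comp (evV (Zw p) p) = evV R p :=
    RingHom.ext fun H => coeffMap_evV _ p H
  rw [h2] at h
  rw [deltaPoly, h]
  refine Finset.prod_congr rfl fun i _ => ?_
  rw [Polynomial.map_sub, Polynomial.map_X, Polynomial.map_C, coeffMap_aT, map_uw]

include hv in
theorem evV_mixedSum (k : ℕ) : evV R p (mixedSum p k) = ∑ i, aT R p v i * jT R p v i ^ k := by
  have h := congrArg (coeffMap (liftZw p v hv)) (exists_mixedSum p k).choose_spec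
  rw [coeffMap_evV, map_sum] at h
  rw [mixedSum, h]
  refine Finset.sum_congr rfl fun i _ => ?_
  rw [map_mul, map_pow, coeffMap_jT, coeffMap_aT, map_uw]

end AnyRing

end Fermat.Agent.ModPoly
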