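import Mathlib
import Fermat.Agent.ModPoly.Main

/-!
# `j(q^p)` is not a rational function of `j(q)` in characteristic `≠ p`
-/

set_option autoImplicit false

noncomputable section

open HahnSeries ModularCurve

namespace Fermat.Agent.ModPoly

section IntClosed

variable {K L : Type*} [Field K] [Field L] [Algebra K L]

open IntermediateField.algebraAdjoinAdjoin in
/-- `K[z]` is integrally closed in `K(z)` for `z` transcendental. -/
theorem mem_adjoin_of_isIntegral {z : L} (hz : Transcendental K z) {x : L}
    (hx : x ∈ IntermediateField.adjoin K {z})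
    (hi : IsIntegral (Algebra.adjoin K {z}) x) : x ∈ Algebra.adjoin K {z} := by
  have e : Polynomial K ≃ₐ[K] Algebra.adjoin K {z} := by
    rw [Algebra.adjoin_singleton_eq_range_aeval]
    exact AlgEquiv.ofInjective _ (transcendental_iff_injective.mp hz)
  have : IsIntegrallyClosed (Algebra.adjoin K {z}) :=
    IsIntegrallyClosed.of_equiv e.toRingEquiv
  have h1 : IsIntegral (Algebra.adjoin K {z})
      (⟨x, hx⟩ : IntermediateField.adjoin K {z}) := by
    rw [← isIntegral_algebraMap_iff
      (FaithfulSMul.algebraMap_injective (IntermediateField.adjoin K {z}) L)]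
    exact hi
  obtain ⟨y, hy⟩ := (IsIntegrallyClosed.isIntegral_iff
    (R := Algebra.adjoin K {z}) (K := IntermediateField.adjoin K {z})).mp h1
  have h2 : (y : L) = x := congrArg Subtype.val hy
  rw [← h2]
  exact y.2

end IntClosed

section Field

variable {K : Type*} [Field K]

theorem transcendental_jqModC : Transcendental K (jqModC K) := by
  rw [transcendental_iff_injective, injective_iff_map_eq_zero]
  intro G hG
  have h1 := coeff_aeval_jq_neg_natDegree G
  change Polynomial.aeval (jqModC K) G = 0 at hG
  rw [hG, HahnSeries.coeff_zero] at h1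
  exact Polynomial.leadingCoeff_eq_zero.mp h1.symm

theorem order_aeval_jqModC {G : Polynomial K} (hG : G ≠ 0) :
    (Polynomial.aeval (jqModC K) G).order = -(G.natDegree : ℤ) := order_aeval_jq hG

variable (K) in
/-- evaluation of polynomials over `K` at `j(t^p)` -/
def evK (p : ℕ) [NeZero p] : Polynomial K →+* LaurentSeries K :=
  (qExpand K p).comp (Polynomial.aeval (jqModC K) : Polynomial K →ₐ[K] LaurentSeries K).toRingHom

theorem evK_apply (p : ℕ) [NeZero p] (G : Polynomial K) :
    evK K p G = qExpand K p (Polynomial.aeval (jqModC K) G) := rfl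

theorem evK_injective (p : ℕ) [NeZero p] : Function.Injective (evK K p) :=
  (qExpand_injective p).comp (transcendental_iff_injective.mp transcendental_jqModC)

theorem evK_comp_map (p : ℕ) [NeZero p] :
    (evK K p).comp (Polynomial.mapRingHom (Int.castRingHom K)) = evV K p := by
  ext H
  · simp [evV, evJ]
  · simp [evK_apply, evV, evJ]

variable (p : ℕ) [hp : Fact p.Prime]

variable (K) in
/-- `Φ_p` over `K`. -/
def modPolyK : Polynomial (Polynomial K) :=
  (modPoly p).map (Polynomial.mapRingHom (Int.castRingHom K))

theorem modPolyK_monic : (modPolyK K p).Monic := (modPoly_monic p).map _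

variable {p} {v : Kˣ} (hv : IsPrimitiveRoot v p)

include hv in
theorem modPolyK_map : (modPolyK K p).map (evK K p) =
    ∏ i, (Polynomial.X - Polynomial.C (jT K p v i)) := by
  rw [modPolyK, Polynomial.map_map, evK_comp_map, modPoly_map p (isRoot_of_primitive hv)]

theorem order_jT_none : (jT K p v none).order = -(p * p : ℤ) := by
  simp only [jT, conjL, RingHom.comp_apply, order_qExpand, order_jqModC]
  ring

theorem order_jT_some (b : Fin p) : (jT K p v (some b)).order = -1 := by
  simp only [jT, conjL, order_twist, order_jqModC]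

theorem jT_none_ne_some (b : Fin p) : jT K p v none ≠ jT K p v (some b) := by
  intro h
  have h1 := congrArg HahnSeries.order h
  rw [order_jT_none, order_jT_some] at h1
  have h2 : (2 : ℤ) ≤ p := by exact_mod_cast hp.out.two_le
  nlinarith

include hv in
/-- `j(q^p)` is integral over `K[j]`. -/
theorem isIntegral_qExpand_jq : IsIntegral (Algebra.adjoin K {jqModC K})
    (qExpand K p (jqModC K)) := by
  let φ : Polynomial K →+* Algebra.adjoin K {jqModC K} :=
    ((Polynomial.aeval (jqModC K)).codRestrict (Algebra.adjoin K {jqModC K})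
      (fun G => by
        rw [Algebra.adjoin_singleton_eq_range_aeval]; exact ⟨G, rfl⟩)).toRingHom
  refine ⟨(modPolyK K p).map φ, (modPolyK_monic p).map _, ?_⟩
  have h1 : ((modPolyK K p).map (evK K p)).eval (qExpand K p (qExpand K p (jqModC K))) = 0 := by
    rw [modPolyK_map hv, Polynomial.eval_prod]
    refine Finset.prod_eq_zero (Finset.mem_univ none) ?_
    simp [jT, conjL]
  rw [Polynomial.eval₂_map]
  apply qExpand_injective p
  rw [Polynomial.hom_eval₂, map_zero, ← h1, Polynomial.eval_map]
  rfl

variable (K p) in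
/-- `p^12 Δ(q^p)/Δ(q)` -/
def alphaL : LaurentSeries K := (p : LaurentSeries K) ^ 12 * qExpand K p (dL K) * dInv K

theorem aT_none_eq : aT K p v none = qExpand K p (alphaL K p) := by
  rw [aT, alphaL, map_mul, map_mul, map_pow, map_natCast]
  rfl

theorem qExpand_ne_zero' {F : LaurentSeries K} (hF : F ≠ 0) : qExpand K p F ≠ 0 :=
  fun h => hF ((map_eq_zero_iff _ (qExpand_injective p)).mp h)

theorem alphaL_ne_zero (hp0 : (p : K) ≠ 0) : alphaL K p ≠ 0 :=
  mul_ne_zero (mul_ne_zero (pow_ne_zero _ (natCast_laurent_ne_zero hp0))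
    (qExpand_ne_zero' dL_ne_zero)) dInv_ne_zero

theorem order_alphaL (hp0 : (p : K) ≠ 0) : (alphaL K p).order = p - 1 := by
  have h3 : ((p : LaurentSeries K)) ^ 12 ≠ 0 := pow_ne_zero _ (natCast_laurent_ne_zero hp0)
  have h1 : qExpand K p (dL K) ≠ 0 := qExpand_ne_zero' dL_ne_zero
  rw [alphaL, HahnSeries.order_mul (mul_ne_zero h3 h1) dInv_ne_zero, HahnSeries.order_mul h3 h1,
    HahnSeries.order_pow, order_natCast hp0, order_qExpand, order_dL, order_dInv]
  ring

include hv in
/-- `p^12 Δ(q^p)/Δ(q)` is integral over `K[j]`. -/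
theorem isIntegral_alphaL : IsIntegral (Algebra.adjoin K {jqModC K}) (alphaL K p) := by
  let φ : Polynomial K →+* Algebra.adjoin K {jqModC K} :=
    ((Polynomial.aeval (jqModC K)).codRestrict (Algebra.adjoin K {jqModC K})
      (fun G => by
        rw [Algebra.adjoin_singleton_eq_range_aeval]; exact ⟨G, rfl⟩)).toRingHom
  refine ⟨((deltaPoly p).map (Polynomial.mapRingHom (Int.castRingHom K))).map φ,
    ((deltaPoly_monic p).map _).map _, ?_⟩
  have h0 : ((deltaPoly p).map (Polynomial.mapRingHom (Int.castRingHom K))).map (evK K p) =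
      ∏ i, (Polynomial.X - Polynomial.C (aT K p v i)) := by
    rw [Polynomial.map_map, evK_comp_map, deltaPoly_map p (isRoot_of_primitive hv)]
  have h1 : (((deltaPoly p).map (Polynomial.mapRingHom (Int.castRingHom K))).map
      (evK K p)).eval (qExpand K p (alphaL K p)) = 0 := by
    rw [h0, Polynomial.eval_prod]
    refine Finset.prod_eq_zero (Finset.mem_univ none) ?_
    rw [Polynomial.eval_sub, Polynomial.eval_X, Polynomial.eval_C, aT_none_eq, sub_self]
  rw [Polynomial.eval₂_map]
  apply qExpand_injective p
  rw [Polynomial.hom_eval₂, map_zero, ← h1, Polynomial.eval_map]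
  rfl

include hv in
/-- **Base case**: `j(q^p)` is not in `K(j(q))` when `p ≠ 0` in `K`. -/
theorem qExpand_jq_notMem (hp0 : (p : K) ≠ 0) :
    qExpand K p (jqModC K) ∉ IntermediateField.adjoin K {jqModC K} := by
  intro hmem
  have h1 := mem_adjoin_of_isIntegral transcendental_jqModC hmem (isIntegral_qExpand_jq hv)
  rw [Algebra.adjoin_singleton_eq_range_aeval] at h1
  obtain ⟨G, hG⟩ := h1
  change Polynomial.aeval (jqModC K) G = qExpand K p (jqModC K) at hG
  have hjn : jT K p v none = evK K p G := by
    rw [evK_apply, hG]; rfl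
  -- divide `Φ_p` by `X - G`
  have hroot : (modPolyK K p).IsRoot G := by
    rw [Polynomial.IsRoot]
    apply evK_injective p
    rw [map_zero, ← Polynomial.eval₂_hom, ← Polynomial.eval_map, modPolyK_map hv,
      Polynomial.eval_prod]
    exact Finset.prod_eq_zero (Finset.mem_univ none) (by simp [hjn])
  obtain ⟨m, hm⟩ := Polynomial.dvd_iff_isRoot.mpr hroot
  have hmmap : m.map (evK K p) =
      ∏ b : Fin p, (Polynomial.X - Polynomial.C (jT K p v (some b))) := by
    have h2 := modPolyK_map hv
    rw [hm, Polynomial.map_mul, Polynomial.map_sub, Polynomial.map_X, Polynomial.map_C,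
      Fintype.prod_option, ← hjn] at h2
    exact mul_left_cancel₀ (Polynomial.X_sub_C_ne_zero _) h2
  set c : Polynomial K := m.eval G with hc
  have hcmap : evK K p c = ∏ b : Fin p, (jT K p v none - jT K p v (some b)) := by
    rw [hc, ← Polynomial.eval₂_hom, ← Polynomial.eval_map, hmmap, Polynomial.eval_prod, ← hjn]
    simp
  have hc0 : evK K p c ≠ 0 := by
    rw [hcmap]
    exact Finset.prod_ne_zero_iff.mpr fun b _ => sub_ne_zero.mpr (jT_none_ne_some b)
  set W : Polynomial K := ∑ k ∈ Finset.range (m.natDegree + 1),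
    m.coeff k * (mixedSum p k).map (Int.castRingHom K) with hW
  have hWmap : evK K p W = aT K p v none * evK K p c := by
    have h3 : ∀ i, ∑ k ∈ Finset.range (m.natDegree + 1), evK K p (m.coeff k) * jT K p v i ^ k =
        (m.map (evK K p)).eval (jT K p v i) := by
      intro i
      rw [Polynomial.eval_map, Polynomial.eval₂_eq_sum_range]
    have h4 : evK K p W = ∑ i, aT K p v i * (m.map (evK K p)).eval (jT K p v i) := by
      simp_rw [← h3, Finset.mul_sum]
      rw [hW, map_sum, Finset.sum_comm]
      refine Finset.sum_congr rfl fun k _ => ?_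
      rw [map_mul, ← Polynomial.coe_mapRingHom, ← RingHom.comp_apply, evK_comp_map,
        evV_mixedSum p (isRoot_of_primitive hv), Finset.mul_sum]
      refine Finset.sum_congr rfl fun i _ => by ring
    rw [h4, Fintype.sum_option, hmmap]
    have h5 : ∀ b : Fin p, Polynomial.eval (jT K p v (some b))
        (∏ b : Fin p, (Polynomial.X - Polynomial.C (jT K p v (some b)))) = 0 := by
      intro b
      rw [Polynomial.eval_prod]
      exact Finset.prod_eq_zero (Finset.mem_univ b) (by simp)
    simp only [h5, mul_zero, Finset.sum_const_zero, add_zero]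
    rw [hcmap, Polynomial.eval_prod]
    simp
  have hαW : alphaL K p * Polynomial.aeval (jqModC K) c = Polynomial.aeval (jqModC K) W := by
    apply qExpand_injective p
    rw [map_mul, ← aT_none_eq (v := v)]
    exact hWmap.symm
  have hc0' : Polynomial.aeval (jqModC K) c ≠ 0 := by
    intro h
    apply hc0
    rw [evK_apply, h, map_zero]
  have hαmem : alphaL K p ∈ IntermediateField.adjoin K {jqModC K} := by
    rw [IntermediateField.mem_adjoin_simple_iff]
    exact ⟨W, c, by rw [eq_div_iff hc0', hαW]⟩
  have h6 := mem_adjoin_of_isIntegral transcendental_jqModC hαmem (isIntegral_alphaL hv)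
  rw [Algebra.adjoin_singleton_eq_range_aeval] at h6
  obtain ⟨A, hA⟩ := h6
  change Polynomial.aeval (jqModC K) A = alphaL K p at hA
  have hA0 : A ≠ 0 := by
    rintro rfl
    exact alphaL_ne_zero hp0 (by rw [← hA, map_zero])
  have h7 := order_aeval_jqModC hA0
  rw [hA, order_alphaL hp0] at h7
  have h8 : (2 : ℤ) ≤ p := by exact_mod_cast hp.out.two_le
  omega

end Field

end Fermat.Agent.ModPoly
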